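import Fermat.Agent.Theta.Binary
import Fermat.Agent.Newforms.Newform
import Mathlib.NumberTheory.LegendreSymbol.JacobiSymbol

/-!
# Interface of the form side of the two-adic modularity theorem

For `N ≡ 3 (mod 8)` squarefree, the class group of `ℚ(√-N)` enters through binary forms of
discriminant `-N` and ideal counting functions (`IdealData`); the residual dihedral system and a
finite abelian `2`-group `C` through `ResidualData`. The goal is `ManyCongruentNewforms`: at level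
`N ∏ Q`, `Q` a finite set of inert odd primes, there are at least `#C * 2 ^ (#Q + 1)` congruent
newforms. The intermediate statements `SeedCoeff` and `SeedFamily` are proved in separate files.
-/

set_option autoImplicit false

noncomputable section

open CongruenceSubgroup ModularFormClass
open scoped Real NumberTheorySymbols

namespace Fermat.Agent.TwoAdic.Forms

/-- The algebraic integers in `ℂ`. -/
abbrev ZBar : Type := integralClosure ℤ ℂ

/-- A primitive cube root of unity as an algebraic integer. -/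
def omega : ZBar :=
  ⟨Complex.exp (2 * π * Complex.I / 3),
    (Complex.isPrimitiveRoot_exp 3 three_ne_zero).isIntegral three_pos⟩

/-- The primes at which `ℚ(√-N)` is inert, for `N ≡ 3 (mod 8)`. -/
def IsInertPrime (N ℓ : ℕ) : Prop :=
  ℓ.Prime ∧ (ℓ = 2 ∨ J(-(N : ℤ) | ℓ) = -1)

/-- Class group, forms and ideal counting functions of discriminant `-N`. -/
structure IdealData (N : ℕ) where
  G : Type
  [instCommGroup : CommGroup G]
  [instFintype : Fintype G]
  form : G → Theta.BinForm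
  form_pos : ∀ i, (form i).IsPos
  negDisc_form : ∀ i, (form i).negDisc = N
  gauss_mul_sq : ∀ (c : ℕ) [NeZero c] (a : ℤ), IsCoprime a (c : ℤ) →
    ∀ i t, (form (i * t ^ 2)).gaussSum₂ c a = (form i).gaussSum₂ c a
  /-- `idealCount i n` is the number of integral ideals of norm `n` in the class `i`. -/
  idealCount : G → ℕ → ℕ
  count_form : ∀ i n, 0 < n → (form i).count n = 2 * idealCount i n
  idealCount_one_one : idealCount 1 1 = 1
  idealCount_one_of_ne : ∀ i, i ≠ 1 → idealCount i 1 = 0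
  recursion_inert : ∀ ℓ, IsInertPrime N ℓ → ∀ i n, 0 < n →
    idealCount i (n * ℓ) = if ℓ ∣ n then idealCount i (n / ℓ) else 0
  recursion_split : ∀ ℓ : ℕ, ℓ.Prime → ℓ ≠ 2 → J(-(N : ℤ) | ℓ) = 1 → ∃ p : G, ∀ i n, 0 < n →
    idealCount i (n * ℓ) + (if ℓ ∣ n then idealCount i (n / ℓ) else 0) =
      idealCount (i * p⁻¹) n + idealCount (i * p) n

attribute [instance] IdealData.instCommGroup IdealData.instFintype

variable {N : ℕ}

/-- `p` is the class of one of the two primes over the split prime `ℓ`. -/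
def IdealData.IsPrimeClass (D : IdealData N) (ℓ : ℕ) (p : D.G) : Prop :=
  ∀ i n, 0 < n →
    D.idealCount i (n * ℓ) + (if ℓ ∣ n then D.idealCount i (n / ℓ) else 0) =
      D.idealCount (i * p⁻¹) n + D.idealCount (i * p) n

/-- The residual dihedral system: a character `psi` of order three, a `2`-group quotient `C`. -/
structure ResidualData {N : ℕ} (D : IdealData N) where
  C : Type
  [instCommGroup : CommGroup C]
  [instFintype : Fintype C]
  [instDecidableEq : DecidableEq C]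
  card_two_pow : ∃ k, Fintype.card C = 2 ^ k
  art : D.G →* C
  psi : D.G →* Multiplicative (ZMod 3)
  abar : ℕ → ZMod 2
  abar_two : abar 2 = 1
  abar_inert : ∀ ℓ, IsInertPrime N ℓ → ℓ ≠ 2 → abar ℓ = 0
  abar_split : ∀ ℓ : ℕ, ℓ.Prime → ℓ ≠ 2 → J(-(N : ℤ) | ℓ) = 1 → ∀ p : D.G, D.IsPrimeClass ℓ p →
    abar ℓ = if psi p = 1 then 0 else 1
  prime_surj : ∀ (c : C) (e : Multiplicative (ZMod 3)) (S : Finset ℕ),
    ∃ ℓ : ℕ, ℓ.Prime ∧ ℓ ∉ S ∧ ℓ ≠ 2 ∧ J(-(N : ℤ) | ℓ) = 1 ∧
      ∃ p : D.G, D.IsPrimeClass ℓ p ∧ art p = c ∧ psi p = e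

attribute [instance] ResidualData.instCommGroup ResidualData.instFintype
  ResidualData.instDecidableEq

variable {D : IdealData N}

/-- The weight of the class `i` in the component `c`. -/
def ResidualData.weight (R : ResidualData D) (c : R.C) (i : D.G) : ZBar :=
  if R.art i = c then omega ^ (Multiplicative.toAdd (R.psi i)).val else 0

/-- The coefficients of the weight one form of the component `c` (constant term zero). -/
def ResidualData.wIdeal (R : ResidualData D) (c : R.C) (n : ℕ) : ZBar :=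
  if n = 0 then 0 else ∑ i : D.G, R.weight c i * (D.idealCount i n : ZBar)

/-- `n ↦ a (n / d)`. -/
def dil {A : Type*} [Zero A] (d : ℕ) (a : ℕ → A) (n : ℕ) : A :=
  if d ∣ n then a (n / d) else 0

/-- The form is congruent to `abar` at all primes outside the level `L` (including `2`). -/
def IsCongruentTo (𝔪 : Ideal ZBar) (abar : ℕ → ZMod 2) (L : ℕ) {M : ℕ}
    (g : CuspForm (Gamma0 M) 2) : Prop :=
  ∀ ℓ : ℕ, ℓ.Prime → ¬ ℓ ∣ L →
    ∃ a : ZBar, (a : ℂ) = qCoeff g ℓ ∧ a - ((abar ℓ).val : ZBar) ∈ 𝔪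

/-- All coefficients are algebraic integers. -/
def IsIntegralForm {M : ℕ} (f : CuspForm (Gamma0 M) 2) : Prop :=
  ∀ n, ∃ x : ZBar, (x : ℂ) = qCoeff f n

/-- The forms fixed by the squares of all `U_q`, `q ∈ Q`. -/
def IsUSqFixed {L : ℕ} [NeZero L] (Q : Finset ℕ) (f : CuspForm (Gamma0 L) 2) : Prop :=
  ∀ q, ∀ hq : q.Prime, q ∈ Q → Newforms.hOp L hq (Newforms.hOp L hq f) = f

/-- The admissible sets of auxiliary primes. -/
def IsAuxSet (N : ℕ) (Q : Finset ℕ) : Prop :=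
  ∀ q ∈ Q, IsInertPrime N q ∧ q ≠ 2 ∧ ¬ q ∣ N

/-- For every component and every `d ∣ 2 ∏ Q`, an integral form of level `N ∏ Q`, fixed by all
`U_q²`, congruent modulo `2` to the dilation by `d` of the weight one coefficients. -/
def SeedCoeff (R : ResidualData D) : Prop :=
  ∀ Q : Finset ℕ, IsAuxSet N Q → ∀ [NeZero (N * ∏ q ∈ Q, q)], ∀ (c : R.C) (d : ℕ),
    d ∣ 2 * ∏ q ∈ Q, q →
      ∃ f : CuspForm (Gamma0 (N * ∏ q ∈ Q, q)) 2, IsUSqFixed Q f ∧
        ∀ n, ∃ x y : ZBar, (x : ℂ) = qCoeff f n ∧ x = dil d (R.wIdeal c) n + 2 * y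

/-- A family of integral forms with reductions independent modulo `𝔪`, killed modulo `𝔪` by powers
of `T_ℓ - abar ℓ`. -/
structure IsSeedFamily {L : ℕ} [NeZero L] (𝔪 : Ideal ZBar) (abar : ℕ → ZMod 2) (Q : Finset ℕ)
    {ι : Type} [Fintype ι] (f : ι → CuspForm (Gamma0 L) 2) : Prop where
  integral : ∀ i, IsIntegralForm (f i)
  fixed : ∀ i, IsUSqFixed Q (f i)
  indep : ∀ c : ι → ZBar,
    (∀ n, ∃ x ∈ 𝔪, (x : ℂ) = ∑ i, (c i : ℂ) * qCoeff (f i) n) → ∀ i, c i ∈ 𝔪
  nilp : ∀ (ℓ : ℕ) (hℓ : ℓ.Prime), ¬ ℓ ∣ L → ∃ e : ℕ, ∀ i n, ∃ x ∈ 𝔪, (x : ℂ) =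
    qCoeff ⇑(((Newforms.hOp L hℓ - ((abar ℓ).val : ℂ) • 1) ^ e) (f i)) n

/-- The seed family has `#C * 2 ^ (#Q + 1)` members. -/
def SeedFamily (R : ResidualData D) : Prop :=
  ∀ Q : Finset ℕ, IsAuxSet N Q → ∀ [NeZero (N * ∏ q ∈ Q, q)], ∀ 𝔪 : Ideal ZBar, 𝔪.IsMaximal →
    (2 : ZBar) ∈ 𝔪 → ∃ (ι : Type) (_ : Fintype ι)
      (f : ι → CuspForm (Gamma0 (N * ∏ q ∈ Q, q)) 2),
      Fintype.card ι = Fintype.card R.C * 2 ^ (Q.card + 1) ∧ IsSeedFamily 𝔪 R.abar Q f

/-- The outcome of the form side. `hlow` is the ramification of the residual system at the primes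
of `N`, supplied by the Galois side. -/
def ManyCongruentNewforms (R : ResidualData D) : Prop :=
  ∀ Q : Finset ℕ, IsAuxSet N Q → ∀ 𝔪 : Ideal ZBar, 𝔪.IsMaximal → (2 : ZBar) ∈ 𝔪 →
    (∀ M : ℕ, M ∣ N * ∏ q ∈ Q, q → ∀ h : CuspForm (Gamma0 M) 2, h.IsNewform →
      IsCongruentTo 𝔪 R.abar (N * ∏ q ∈ Q, q) h → N ∣ M) →
    ∃ F : Finset (CuspForm (Gamma0 (N * ∏ q ∈ Q, q)) 2),
      Fintype.card R.C * 2 ^ (Q.card + 1) ≤ F.card ∧
      ∀ g ∈ F, g.IsNewform ∧ IsCongruentTo 𝔪 R.abar (N * ∏ q ∈ Q, q) g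

end Fermat.Agent.TwoAdic.Forms
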