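import Fermat.Agent.TwoAdic.Forms.Iface

/-!
# Assembly of the form side from the seed family and the counting lemma
-/

set_option autoImplicit false

noncomputable section

open CongruenceSubgroup

namespace Fermat.Agent.TwoAdic.Forms

/-- The counting lemma, as an input of the assembly. -/
def CountProperty : Prop :=
  ∀ (L : ℕ) [NeZero L], Squarefree L → ∀ Q : Finset ℕ, (∀ q ∈ Q, q.Prime ∧ q ∣ L) →
    ∀ 𝔪 : Ideal ZBar, 𝔪.IsMaximal → ∀ (abar : ℕ → ZMod 2) (ι : Type) (_ : Fintype ι)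
      (f : ι → CuspForm (Gamma0 L) 2), IsSeedFamily 𝔪 abar Q f →
      (∀ M : ℕ, M ∣ L → ∀ h : CuspForm (Gamma0 M) 2, h.IsNewform →
        IsCongruentTo 𝔪 abar L h → (∀ q ∈ Q, q ∣ M) → M = L) →
      ∃ F : Finset (CuspForm (Gamma0 L) 2), Fintype.card ι ≤ F.card ∧
        ∀ g ∈ F, g.IsNewform ∧ IsCongruentTo 𝔪 abar L g

theorem coprime_prod_of_isAuxSet {N : ℕ} {Q : Finset ℕ} (hQ : IsAuxSet N Q) :
    Nat.Coprime N (∏ q ∈ Q, q) :=
  Nat.Coprime.prod_right fun q hq =>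
    ((hQ q hq).1.1.coprime_iff_not_dvd.2 (hQ q hq).2.2).symm

theorem squarefree_mul_prod {N : ℕ} (hN : Squarefree N) {Q : Finset ℕ} (hQ : IsAuxSet N Q) :
    Squarefree (N * ∏ q ∈ Q, q) := by
  rw [Nat.squarefree_mul_iff]
  refine ⟨coprime_prod_of_isAuxSet hQ, hN, ?_⟩
  clear hN
  induction Q using Finset.induction_on with
  | empty => simp
  | insert q Q hq ih =>
    rw [Finset.prod_insert hq, Nat.squarefree_mul_iff]
    refine ⟨Nat.Coprime.prod_right fun r hr => ?_,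
      (hQ q (Finset.mem_insert_self _ _)).1.1.squarefree,
      ih fun r hr => hQ r (Finset.mem_insert_of_mem hr)⟩
    exact (Nat.coprime_primes (hQ q (Finset.mem_insert_self _ _)).1.1
      (hQ r (Finset.mem_insert_of_mem hr)).1.1).2 fun h => hq (h ▸ hr)

/-- The form side: at level `N ∏ Q` there are at least `#C * 2 ^ (#Q + 1)` congruent newforms. -/
theorem manyCongruentNewforms {N : ℕ} (hN : Squarefree N) {D : IdealData N} {R : ResidualData D}
    (hS : SeedFamily R) (hC : CountProperty) : ManyCongruentNewforms R := by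
  intro Q hQ 𝔪 h𝔪 h2 hlow
  have hL := squarefree_mul_prod hN hQ
  have : NeZero (N * ∏ q ∈ Q, q) := ⟨hL.ne_zero⟩
  obtain ⟨ι, _, f, hcard, hf⟩ := hS Q hQ 𝔪 h𝔪 h2
  have hQL : ∀ q ∈ Q, q.Prime ∧ q ∣ N * ∏ q ∈ Q, q := fun q hq =>
    ⟨(hQ q hq).1.1, (Finset.dvd_prod_of_mem (fun q => q) hq).trans (dvd_mul_left _ _)⟩
  have hlevel : ∀ M : ℕ, M ∣ N * ∏ q ∈ Q, q → ∀ h : CuspForm (Gamma0 M) 2, h.IsNewform →
      IsCongruentTo 𝔪 R.abar (N * ∏ q ∈ Q, q) h → (∀ q ∈ Q, q ∣ M) → M = N * ∏ q ∈ Q, q :=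
    fun M hM h hnew hcong hqM =>
      Nat.dvd_antisymm hM ((coprime_prod_of_isAuxSet hQ).mul_dvd_of_dvd_of_dvd
        (hlow M hM h hnew hcong)
        (Finset.prod_primes_dvd M (fun q hq => (hQ q hq).1.1.prime) hqM))
  obtain ⟨F, hF, hFg⟩ := hC _ hL Q hQL 𝔪 h𝔪 R.abar ι inferInstance f hf hlevel
  exact ⟨F, hcard ▸ hF, hFg⟩

end Fermat.Agent.TwoAdic.Forms
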