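import Fermat.Agent.TwoAdic.Forms.CountSystems
import Fermat.Agent.TwoAdic.Forms.Main

/-!
# Counting congruent newforms

A seed family gives at least as many congruent newforms at level `L` as it has members
(`exists_congruent_newforms_of_oldRoot`, `countProperty_of_oldRoot`).
-/

set_option autoImplicit false

noncomputable section

open CongruenceSubgroup ModularFormClass

namespace Fermat.Agent.TwoAdic.Forms

/-- An eigenvector at level `L` fixed by `U_q²` has a newform of level divisible by `q`. -/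
def OldRootProperty : Prop :=
  ∀ {L M : ℕ} [NeZero L] [NeZero M], M ∣ L → ∀ {h : CuspForm (Gamma0 M) 2}, h.IsNewform →
    ∀ {q : ℕ} (hq : q.Prime), q ∣ L → ¬ q ^ 2 ∣ L → ∀ {v : CuspForm (Gamma0 L) 2}, v ≠ 0 →
      (∀ ℓ (hℓ : ℓ.Prime), ¬ ℓ ∣ L → Newforms.hOp L hℓ v = qCoeff h ℓ • v) →
      Newforms.hOp L hq (Newforms.hOp L hq v) = v → q ∣ M

variable {L : ℕ} [NeZero L] {𝔪 : Ideal ZBar} {abar : ℕ → ZMod 2} {Q : Finset ℕ}
  {ι : Type} [Fintype ι] {f : ι → CuspForm (Gamma0 L) 2}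

theorem isUSqFixed_apply {P : Module.End ℂ (CuspForm (Gamma0 L) 2)} (hP : IsHeckePoly P)
    {x : CuspForm (Gamma0 L) 2} (hx : IsUSqFixed Q x) : IsUSqFixed Q (P x) := by
  intro q hq hqQ
  simp only [← Module.End.mul_apply, ← (hP.comm q hq).eq]
  simp only [← mul_assoc, ← (hP.comm q hq).eq]
  simp only [mul_assoc, Module.End.mul_apply, hx q hq hqQ]

/-- A factor `T_ℓ - a` with `a - abar ℓ` a unit at `𝔪` keeps a seed family a seed family. -/
theorem IsSeedFamily.hOp_sub (hm : 𝔪.IsMaximal) (hf : IsSeedFamily 𝔪 abar Q f) (ℓ : GoodPrime L)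
    (a : ZBar) (ha : a - ((abar ℓ.1).val : ZBar) ∉ 𝔪) :
    IsSeedFamily 𝔪 abar Q fun i => (Newforms.hOp L ℓ.2.1 - (a : ℂ) • 1) (f i) := by
  set T := Newforms.hOp L ℓ.2.1 - (a : ℂ) • 1 with hT
  have hcomm : ∀ (q : ℕ) (hq : q.Prime), Commute T (Newforms.hOp L hq) := fun q hq =>
    (Newforms.hOp_commute ℓ.2.1 hq).sub_left ((Commute.one_left _).smul_left _)
  refine ⟨fun i => coeffsIn_top.mp ((coeffsIn_top.mpr (hf.integral i)).hOp_sub ℓ.2.1 a),
    fun i => ?_, fun c hc => ?_, fun l hl hlL => ?_⟩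
  · have h1 : IsHeckePoly (((1 : ℂ) • T) * 1) := isHeckePoly_one.smul_sub_mul ℓ (a : ℂ) 1
    rw [one_smul, mul_one] at h1
    exact isUSqFixed_apply h1 (hf.fixed i)
  · set x := ∑ i, (c i : ℂ) • f i with hx
    have hTx : CoeffsIn 𝔪 (T x) := fun n => by
      obtain ⟨y, hy, hy'⟩ := hc n
      refine ⟨y, hy, hy'.trans ?_⟩
      rw [hx, map_sum, show ∑ i, T ((c i : ℂ) • f i) = ∑ i, (c i : ℂ) • T (f i) from
        Finset.sum_congr rfl fun i _ => map_smul T _ _, qCoeff_sum_smul]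
    obtain ⟨e, he⟩ := hf.nilp ℓ.1 ℓ.2.1 ℓ.2.2
    generalize (abar ℓ.1).val = b at ha he
    set u : ZBar := a - (b : ZBar) with hu
    set D := Newforms.hOp L ℓ.2.1 - (b : ℂ) • 1 with hD
    -- `(D ^ e) x = u ^ e • x` modulo `𝔪`
    have hiter : ∀ j : ℕ, CoeffsIn 𝔪 ((D ^ j) x + (-((u ^ j : ZBar) : ℂ)) • x) := by
      intro j
      induction j with
      | zero => simpa using coeffsIn_zero 𝔪
      | succ j ih =>
        have h1 := (ih.hOp_sub ℓ.2.1 (b : ZBar)).add (hTx.smul (u ^ j))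
        convert h1 using 1
        have e1 : D x = T x + (u : ℂ) • x := by
          simp [hD, hT, hu, sub_smul]
        have e0 : ((b : ZBar) : ℂ) = (b : ℂ) := by simp
        rw [e0, ← hD, map_add, map_smul, e1, pow_succ' D, Module.End.mul_apply]
        simp only [smul_add, smul_smul, Subalgebra.coe_pow, Subalgebra.coe_mul, pow_succ]
        module
    have hDe : CoeffsIn 𝔪 ((D ^ e) x) := by
      rw [hx, map_sum]
      exact CoeffsIn.sum _ fun i _ => by
        rw [map_smul]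
        exact CoeffsIn.smul (fun n => he i n) (c i)
    have hux : CoeffsIn 𝔪 (((u ^ e : ZBar) : ℂ) • x) := by
      have h := hDe.add ((hiter e).smul (-1))
      simpa using h
    refine hf.indep c fun n => ?_
    obtain ⟨z, hz⟩ : ∃ z : ZBar, (z : ℂ) = qCoeff x n := by
      choose b hb using fun i => hf.integral i n
      exact ⟨∑ i, c i * b i, by simp [hx, qCoeff_sum_smul, hb]⟩
    obtain ⟨y, hy, hy'⟩ := hux n
    rw [qCoeff_smul_forms, ← hz] at hy'
    have hyz : y = u ^ e * z := Subtype.ext (by simpa using hy')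
    refine ⟨z, (hm.isPrime.mem_or_mem (hyz ▸ hy)).resolve_left
      (fun h => ha (hm.isPrime.mem_of_pow_mem e h)), ?_⟩
    rw [hz, hx, qCoeff_sum_smul]
  · obtain ⟨e, he⟩ := hf.nilp l hl hlL
    refine ⟨e, fun i => ?_⟩
    show CoeffsIn 𝔪 (((Newforms.hOp L hl - ((abar l).val : ℂ) • 1) ^ e) (T (f i)))
    rw [← Module.End.mul_apply,
      ← (((hcomm l hl).sub_right ((Commute.one_right _).smul_right _)).pow_right e).eq,
      Module.End.mul_apply]
    exact CoeffsIn.hOp_sub (fun n => he i n) ℓ.2.1 a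

/-- Project a seed family away from finitely many non-congruent systems. -/
theorem exists_projected_family (hm : 𝔪.IsMaximal) (hf : IsSeedFamily 𝔪 abar Q f)
    (S : Finset (GoodPrime L → ℂ))
    (hS : ∀ s ∈ S, ∃ (ℓ : GoodPrime L) (a : ZBar), (a : ℂ) = s ℓ ∧
      a - ((abar ℓ.1).val : ZBar) ∉ 𝔪) :
    ∃ P, IsHeckePoly P ∧ IsSeedFamily 𝔪 abar Q (fun i => P (f i)) ∧
      ∀ s ∈ S, ∀ w, HasSystem s w → P w = 0 := by
  classical
  induction S using Finset.induction with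
  | empty => exact ⟨1, isHeckePoly_one, by simpa using hf, by simp⟩
  | insert s S _ ih =>
    obtain ⟨P, hP, hfam, hkill⟩ := ih fun t ht => hS t (Finset.mem_insert_of_mem ht)
    obtain ⟨ℓ, a, has, ha⟩ := hS s (Finset.mem_insert_self s S)
    refine ⟨_, hP.smul_sub_mul ℓ (a : ℂ) 1, ?_, fun t ht w hw => ?_⟩
    · simpa only [one_smul, Module.End.mul_apply] using hfam.hOp_sub hm ℓ a ha
    · rcases Finset.mem_insert.mp ht with rfl | ht
      · obtain ⟨c, hc⟩ := hP.scalar t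
        rw [Module.End.mul_apply, hc w hw, map_smul, LinearMap.smul_apply, hw.sub_apply, has,
          sub_self, zero_smul, smul_zero, smul_zero]
      · rw [Module.End.mul_apply, hkill t ht w hw, map_zero]

/-- **Counting**: a seed family gives as many congruent newforms as it has members. -/
theorem exists_congruent_newforms_of_oldRoot (hOld : OldRootProperty) (hL : Squarefree L)
    (hQ : ∀ q ∈ Q, q.Prime ∧ q ∣ L) (hm : 𝔪.IsMaximal) (hf : IsSeedFamily 𝔪 abar Q f)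
    (hlevel : ∀ M, M ∣ L → ∀ h : CuspForm (Gamma0 M) 2, h.IsNewform →
      IsCongruentTo 𝔪 abar L h → (∀ q ∈ Q, q ∣ M) → M = L) :
    ∃ F : Finset (CuspForm (Gamma0 L) 2), Fintype.card ι ≤ F.card ∧
      ∀ g ∈ F, g.IsNewform ∧ IsCongruentTo 𝔪 abar L g := by
  classical
  obtain ⟨S, hSocc, hSdec⟩ := exists_systems L
  let Cong : (GoodPrime L → ℂ) → Prop := fun s =>
    ∀ ℓ : GoodPrime L, ∃ a : ZBar, (a : ℂ) = s ℓ ∧ a - ((abar ℓ.1).val : ZBar) ∈ 𝔪
  obtain ⟨P, hP, hfam, hkill⟩ := exists_projected_family hm hf (S.filter fun s => ¬ Cong s)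
    fun s hs => by
      obtain ⟨hs, hnc⟩ := Finset.mem_filter.mp hs
      obtain ⟨ℓ, hℓ⟩ := not_forall.mp hnc
      obtain ⟨w, hw, hws⟩ := hSocc s hs
      obtain ⟨M, h, -, -, hh⟩ := exists_newform_of_system hw hws
      obtain ⟨a, ha⟩ := (hh ℓ).2
      exact ⟨ℓ, a, ha, fun hmem => hℓ ⟨a, ha, hmem⟩⟩
  let IsNewOf : (GoodPrime L → ℂ) → CuspForm (Gamma0 L) 2 → Prop := fun s g =>
    g.IsNewform ∧ IsCongruentTo 𝔪 abar L g ∧ ∀ ℓ : GoodPrime L, qCoeff g ℓ.1 = s ℓ
  let S₁ := S.filter fun s => ∃ g, IsNewOf s g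
  let F : Finset (CuspForm (Gamma0 L) 2) :=
    S₁.attach.image fun s => (Finset.mem_filter.mp s.2).2.choose
  refine ⟨F, ?_, fun g hg => ?_⟩
  swap
  · obtain ⟨s, -, rfl⟩ := Finset.mem_image.mp hg
    exact ⟨(Finset.mem_filter.mp s.2).2.choose_spec.1, (Finset.mem_filter.mp s.2).2.choose_spec.2.1⟩
  have hline : ∀ s ∈ S, Cong s → ∀ v, HasSystem s v → IsUSqFixed Q v →
      v ∈ Submodule.span ℂ (F : Set (CuspForm (Gamma0 L) 2)) := by
    intro s hs hsc v hv hfix
    rcases eq_or_ne v 0 with rfl | hv0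
    · exact zero_mem _
    obtain ⟨M, h, hML, hnew, hh⟩ := exists_newform_of_system hv0 hv
    have : NeZero M := ⟨fun h0 => NeZero.ne L (Nat.eq_zero_of_zero_dvd (h0 ▸ hML))⟩
    have hcong : IsCongruentTo 𝔪 abar L h := fun ℓ hℓ hℓL => by
      obtain ⟨a, ha, hmem⟩ := hsc ⟨ℓ, hℓ, hℓL⟩
      exact ⟨a, ha.trans (hh ⟨ℓ, hℓ, hℓL⟩).1.symm, hmem⟩
    have hM : M = L := hlevel M hML h hnew hcong fun q hq =>
      hOld hML hnew (hQ q hq).1 (hQ q hq).2
        (fun h2 => (hQ q hq).1.not_isUnit (hL q (pow_two q ▸ h2))) hv0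
        (fun ℓ hℓ hℓL => by rw [(hh ⟨ℓ, hℓ, hℓL⟩).1]; exact hv ⟨ℓ, hℓ, hℓL⟩)
        (hfix q (hQ q hq).1 hq)
    subst hM
    have hs₁ : s ∈ S₁ := Finset.mem_filter.mpr ⟨hs, h, hnew, hcong, fun ℓ => (hh ℓ).1⟩
    obtain ⟨hg, -, hgs⟩ := (Finset.mem_filter.mp hs₁).2.choose_spec
    rw [Newforms.eq_smul_of_eigen hg (f := v) fun ℓ hℓ hℓL => by
      rw [hgs ⟨ℓ, hℓ, hℓL⟩]; exact hv ⟨ℓ, hℓ, hℓL⟩]
    exact Submodule.smul_mem _ _ (Submodule.subset_span
      (Finset.mem_image.mpr ⟨⟨s, hs₁⟩, Finset.mem_attach _ _, rfl⟩))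
  have hmem : ∀ i, P (f i) ∈ Submodule.span ℂ (F : Set (CuspForm (Gamma0 L) 2)) := by
    intro i
    obtain ⟨w, hw, hsum⟩ := hSdec (f i)
    have hwfix : ∀ s ∈ S, IsUSqFixed Q (w s) := fun s hs => by
      obtain ⟨R, hR, hRs, hRS⟩ := exists_separator s (S.erase s) (Finset.notMem_erase s S)
      have h : R (f i) = w s := by
        rw [hsum, map_sum, Finset.sum_eq_single_of_mem s hs fun t ht hts =>
          hRS t (Finset.mem_erase.mpr ⟨hts, ht⟩) _ (hw t ht), hRs _ (hw s hs)]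
      exact h ▸ isUSqFixed_apply hR (hf.fixed i)
    rw [hsum, map_sum]
    refine Submodule.sum_mem _ fun s hs => ?_
    by_cases hsc : Cong s
    · obtain ⟨c, hc⟩ := hP.scalar s
      rw [hc _ (hw s hs)]
      exact Submodule.smul_mem _ c (hline s hs hsc _ (hw s hs) (hwfix s hs))
    · rw [hkill s (Finset.mem_filter.mpr ⟨hs, hsc⟩) _ (hw s hs)]
      exact zero_mem _
  have hli : LinearIndependent ℂ fun i => P (f i) :=
    linearIndependent_of_indep_mod hm hfam.integral fun c hc => hfam.indep c fun n => by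
      obtain ⟨x, hx, hx'⟩ := hc n
      exact ⟨x, hx, hx'.trans (qCoeff_sum_smul _ _ _ n)⟩
  have := IntegralStructure.finiteDimensional_cuspForm L
  calc Fintype.card ι = Module.finrank ℂ (Submodule.span ℂ (Set.range fun i => P (f i))) :=
        (finrank_span_eq_card hli).symm
    _ ≤ Module.finrank ℂ (Submodule.span ℂ (F : Set (CuspForm (Gamma0 L) 2))) :=
        Submodule.finrank_mono (Submodule.span_le.mpr (Set.range_subset_iff.mpr hmem))
    _ ≤ F.card := finrank_span_finset_le_card F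

/-- The counting lemma in the form used by the assembly. -/
theorem countProperty_of_oldRoot (hOld : OldRootProperty) : CountProperty :=
  fun _L _ hL _Q hQ _𝔪 hm _abar _ι _ _f hf hlevel =>
    exists_congruent_newforms_of_oldRoot hOld hL hQ hm hf hlevel

end Fermat.Agent.TwoAdic.Forms
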