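import Fermat.Agent.RT.GammaH.NormBound
import Fermat.Agent.RT.GammaH.EigenLevel
import Fermat.Agent.Newforms.Newform

/-!
# The coefficient at a `q`-old prime, and `q` in the level of the newform

An eigenform `g` of level `q R`, `q ∤ R`, with the eigensystem of a form `h` of level prime to `q`
has `a_q(g)` a root of `X² - a_q(h) X + q`. After depletion at `R` the difference of `g` and the
stabilised `h` is supported on multiples of `q²`, and such a form of level `q R` vanishes. As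
`|a_q(h)| < q + 1`, the root is not `±1`.
-/

set_option autoImplicit false

noncomputable section

open CongruenceSubgroup ModularFormClass UpperHalfPlane Matrix.SpecialLinearGroup
open scoped MatrixGroups ModularForm

namespace Fermat.Agent.TwoAdic.Forms

open RT.GammaH (transl val_transl)

/-- **The strict Hecke bound.** -/
theorem norm_qCoeff_lt {M : ℕ} [NeZero M] {h : CuspForm (Gamma0 M) 2}
    (hh : h.IsNormalizedEigenform) {q : ℕ} (hq : q.Prime) (hqM : ¬ q ∣ M) :
    ‖qCoeff h q‖ < (q : ℝ) + 1 :=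
  RT.GammaH.norm_qCoeff_lt_succ hq hqM hh

/-- A form of level `q R`, `q ∤ R`, supported on multiples of `q²` is zero. -/
theorem qCoeff_eq_zero_of_sq_supported {N q R : ℕ} [NeZero N] (hq : q.Prime) (hN : N = q * R)
    (hqR : ¬ q ∣ R) (F : CuspForm (Gamma0 N) 2) (hF : ∀ n, ¬ q ^ 2 ∣ n → qCoeff F n = 0) :
    ∀ n, qCoeff F n = 0 := by
  have hq0 : (q : ℝ) ≠ 0 := Nat.cast_ne_zero.2 hq.ne_zero
  have hqc : (q : ℂ) ≠ 0 := Nat.cast_ne_zero.2 hq.ne_zero
  have ht : ⇑F ∣[(2 : ℤ)] transl (q ^ 2) 1 = ⇑F := by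
    funext τ
    rw [transl, RT.GammaH.translQ, DeligneSerre.slash_ratShift_apply]
    refine ((Newforms.hasSum_qCoeff F _).congr_fun fun n => ?_).unique (Newforms.hasSum_qCoeff F τ)
    by_cases hn : q ^ 2 ∣ n
    · obtain ⟨k, rfl⟩ := hn
      rw [pow_mul, pow_mul]
      congr 2
      rw [Function.Periodic.qParam, Function.Periodic.qParam, ← Complex.exp_nat_mul,
        ← Complex.exp_nat_mul, Complex.exp_eq_exp_iff_exists_int]
      refine ⟨-1, ?_⟩
      rw [coe_vadd]
      push_cast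
      field_simp
      ring
    · rw [hF n hn, zero_mul, zero_mul]
  -- two elements of the group, whose product with the translation is `(q, x; 0, 1/q)`
  have hcop : IsCoprime ((R : ℤ) + q) ((R : ℤ) * q ^ 2) := by
    have hqR' : IsCoprime (q : ℤ) R :=
      Nat.isCoprime_iff_coprime.2 (hq.coprime_iff_not_dvd.2 hqR)
    refine IsCoprime.mul_right ?_ (IsCoprime.pow_right ?_)
    · simpa [add_comm] using hqR'.add_mul_left_left 1
    · simpa using hqR'.symm.add_mul_left_left 1
  obtain ⟨d, b, hdb⟩ := hcop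
  let γ₁ : SL(2, ℤ) := ⟨!![1, 0; (q : ℤ) * R, 1], by rw [Matrix.det_fin_two_of]; ring⟩
  let γ₂ : SL(2, ℤ) := ⟨!![(R : ℤ) + q, b; -((R : ℤ) * q ^ 2), d], by
    rw [Matrix.det_fin_two_of]; linear_combination hdb⟩
  have h1 : ⇑F ∣[(2 : ℤ)] (mapGL ℝ γ₁ : GL (Fin 2) ℝ) = ⇑F :=
    Newforms.slash_gamma0_eq F (Newforms.mem_gamma0_iff_dvd.2 (by simp [γ₁, hN]))
  have h2 : ⇑F ∣[(2 : ℤ)] (mapGL ℝ γ₂ : GL (Fin 2) ℝ) = ⇑F :=
    Newforms.slash_gamma0_eq F (Newforms.mem_gamma0_iff_dvd.2 ⟨-q, by simp [γ₂, hN]; ring⟩)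
  let x : ℝ := (b : ℝ) + (d : ℝ) / (q : ℝ) ^ 2
  let G : GL (Fin 2) ℝ := mapGL ℝ γ₁ * transl (q ^ 2) 1 * mapGL ℝ γ₂
  have hG : (G : Matrix (Fin 2) (Fin 2) ℝ) = !![(q : ℝ), x; 0, (q : ℝ)⁻¹] := by
    have hdb' : (d : ℝ) * ((R : ℝ) + q) + (b : ℝ) * ((R : ℝ) * (q : ℝ) ^ 2) = 1 := by
      exact_mod_cast hdb
    simp only [G, Units.val_mul, val_transl]
    ext i j
    fin_cases i <;> fin_cases j <;>
      simp [γ₁, γ₂, x, Matrix.mul_apply, Fin.sum_univ_two] <;> field_simp <;>
      first | ring1 | linear_combination hdb'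
  have hFG : ⇑F ∣[(2 : ℤ)] G = ⇑F := by
    simp only [G, SlashAction.slash_mul, h1, ht, h2]
  set w : ℂ := Complex.exp (2 * Real.pi * Complex.I * ((q : ℂ) * x)) with hw
  have hsum : ∀ τ : ℍ, HasSum (fun n => (if q ^ 2 ∣ n then
      (q : ℂ) ^ 2 * qCoeff F (n / q ^ 2) * w ^ (n / q ^ 2) else 0) *
        Function.Periodic.qParam 1 τ ^ n) (F τ) := by
    intro τ
    have hdet : (G.det.val : ℝ) = 1 := by
      rw [Matrix.GeneralLinearGroup.val_det_apply, hG, Matrix.det_fin_two_of]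
      field_simp
      ring
    have hσ : UpperHalfPlane.σ G = .refl ℝ ℂ := by
      rw [UpperHalfPlane.σ, if_pos (by rw [hdet]; exact one_pos)]
    have hcoe : ((G • τ : ℍ) : ℂ) = (q : ℂ) ^ 2 * τ + (q : ℂ) * x := by
      rw [coe_smul_of_det_pos (by rw [hdet]; exact one_pos)]
      simp [num, denom, hG]
      field_simp
    have hval : F τ = (q : ℂ) ^ 2 * F (G • τ) := by
      conv_lhs => rw [← hFG]
      rw [ModularForm.slash_apply, hσ, ContinuousAlgEquiv.refl_apply, hdet]
      simp [denom, hG]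
      ring
    rw [← Function.Injective.hasSum_iff (g := fun m => q ^ 2 * m)
      (mul_right_injective₀ (pow_ne_zero 2 hq.ne_zero))]
    · rw [hval]
      refine ((Newforms.hasSum_qCoeff F (G • τ)).mul_left ((q : ℂ) ^ 2)).congr_fun fun m => ?_
      simp only [Function.comp_apply, dvd_mul_right, if_true,
        Nat.mul_div_cancel_left m (pow_pos hq.pos 2)]
      rw [pow_mul, mul_assoc, mul_assoc, ← mul_pow w]
      congr 3
      rw [hw, Function.Periodic.qParam, Function.Periodic.qParam, ← Complex.exp_nat_mul,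
        ← Complex.exp_add, hcoe]
      congr 1
      push_cast
      ring
    · intro m hm
      rw [if_neg, zero_mul]
      rintro ⟨k, rfl⟩
      exact hm ⟨k, rfl⟩
  intro n
  induction n using Nat.strong_induction_on with
  | h n ih =>
    rcases Nat.eq_zero_or_pos n with rfl | hn
    · exact Newforms.qCoeff_zero_eq F
    rw [Newforms.qCoeff_eq_of_hasSum F hsum n]
    split_ifs with hd
    · rw [ih (n / q ^ 2) (Nat.div_lt_self hn (Nat.one_lt_pow two_ne_zero hq.one_lt)), mul_zero,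
        zero_mul]
    · rfl

/-- Deletion of the coefficients of index not prime to a divisor `r` of the level. -/
theorem exists_cusp_deplete {M r : ℕ} [NeZero M] [NeZero r] [NeZero (M * r)] (hr : r ∣ M)
    (g : CuspForm (Gamma0 M) 2) :
    ∃ G : CuspForm (Gamma0 (M * r)) 2,
      ∀ n, qCoeff G n = if n.Coprime r then qCoeff g n else 0 := by
  obtain ⟨F, hF, hFa, -⟩ := RT.GammaH.exists_deplete hr (one_dvd M) (RT.GammaH.isNeb_cuspForm g)
    ((RT.GammaH.isNeb_cuspForm g).hasCoeff (one_dvd M))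
  exact ⟨Newforms.mkCusp F (fun γ hγ => hF.slash_eq_of_trivial hγ) hF.cusp,
    Newforms.qCoeff_eq_of_hasSum _ hFa⟩

/-- An eigenform with the good eigensystem of a form of level prime to `q` has at `q` a root of the
Hecke polynomial. -/
theorem qCoeff_root {L M : ℕ} [NeZero L] [NeZero M] (hML : M ∣ L) {g : CuspForm (Gamma0 L) 2}
    (hg : g.IsNormalizedEigenform) {h : CuspForm (Gamma0 M) 2} (hh : h.IsNormalizedEigenform)
    {q : ℕ} (hq : q.Prime) (hqL : q ∣ L) (hqL2 : ¬ q ^ 2 ∣ L) (hqM : ¬ q ∣ M)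
    (heq : ∀ l, l.Prime → ¬ l ∣ L → qCoeff g l = qCoeff h l) :
    qCoeff g q ^ 2 - qCoeff h q * qCoeff g q + q = 0 := by
  classical
  obtain ⟨R, rfl⟩ := hqL
  have hqR : ¬ q ∣ R := fun hd => hqL2 (by rw [pow_two]; exact Nat.mul_dvd_mul_left q hd)
  have hR : R ≠ 0 := fun h0 => NeZero.ne (q * R) (by rw [h0, mul_zero])
  have : NeZero R := ⟨hR⟩
  have : NeZero (R * R) := ⟨mul_ne_zero hR hR⟩
  have : NeZero (q * R * R) := ⟨mul_ne_zero (NeZero.ne _) hR⟩
  have hMR : M ∣ R := ((hq.coprime_iff_not_dvd.2 hqM).symm).dvd_of_dvd_mul_left hML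
  obtain ⟨G, hG⟩ := exists_cusp_deplete (dvd_mul_left R q) g
  obtain ⟨H, hH⟩ := exists_cusp_deplete (dvd_refl R) (Newforms.levelIncl hMR h)
  have hH' : ∀ n, qCoeff H n = if n.Coprime R then qCoeff h n else 0 := fun n => by
    rw [hH, Newforms.qCoeff_levelIncl]
  have hdvd : R * R ∣ q * R * R := ⟨q, by ring⟩
  have hdvd' : q * (R * R) ∣ q * R * R := ⟨1, by ring⟩
  set c := qCoeff g q - qCoeff h q with hc
  set W : CuspForm (Gamma0 (q * R * R)) 2 := G + (-1 : ℂ) • Newforms.levelIncl hdvd H +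
    (-c) • Newforms.levelRaise q hdvd' H with hW
  have hWn : ∀ n, qCoeff W n = qCoeff G n - qCoeff H n -
      c * (if q ∣ n then qCoeff H (n / q) else 0) := fun n => by
    rw [hW, Newforms.qCoeff_add, Newforms.qCoeff_add, Newforms.qCoeff_smul, Newforms.qCoeff_smul,
      Newforms.qCoeff_levelIncl, Newforms.qCoeff_levelRaise]
    ring
  have heq' : ∀ n : ℕ, n.Coprime (q * R) → qCoeff g n = qCoeff h n := fun n hn =>
    RT.GammaH.qCoeff_eq_of_coprime hg hh hML (fun l hl hlL => (heq l hl hlL).symm) hn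
  have hqRc : q.Coprime R := hq.coprime_iff_not_dvd.2 hqR
  have hzero := qCoeff_eq_zero_of_sq_supported hq (mul_assoc q R R)
    (hq.prime.not_dvd_mul hqR hqR) W fun n hn => by
    rw [hWn]
    by_cases hd : q ∣ n
    · obtain ⟨m, rfl⟩ := hd
      have hqm : q.Coprime m := hq.coprime_iff_not_dvd.2 fun hd =>
        hn (by rw [pow_two]; exact Nat.mul_dvd_mul_left q hd)
      rw [if_pos (dvd_mul_right q m), Nat.mul_div_cancel_left _ hq.pos, hG, hH', hH',
        hg.qCoeff_mul_of_coprime _ _ hqm, hh.qCoeff_mul_of_coprime _ _ hqm]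
      by_cases hm : m.Coprime R
      · rw [if_pos (hqRc.mul_left hm), if_pos (hqRc.mul_left hm), if_pos hm,
          heq' m (hqm.symm.mul_right hm), hc]
        ring
      · have hnm : ¬ (q * m).Coprime R := fun hc' => hm hc'.coprime_mul_left
        rw [if_neg hnm, if_neg hnm, if_neg hm]
        ring
    · rw [if_neg hd, hG, hH']
      by_cases hn' : n.Coprime R
      · rw [if_pos hn', if_pos hn',
          heq' n ((hq.coprime_iff_not_dvd.2 hd).symm.mul_right hn')]
        ring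
      · rw [if_neg hn', if_neg hn']
        ring
  have h2 := hzero (q ^ 2)
  rw [hWn, if_pos (dvd_pow_self q two_ne_zero),
    show q ^ 2 / q = q by rw [pow_two, Nat.mul_div_cancel _ hq.pos], hG, hH', hH',
    if_pos (hqRc.pow_left 2), if_pos (hqRc.pow_left 2), if_pos hqRc,
    hg.qCoeff_prime_pow_of_dvd q 0 hq (dvd_mul_right q R),
    hh.qCoeff_prime_pow_of_not_dvd q 0 hq hqM, zero_add, pow_one, pow_zero, hh.qCoeff_one,
    hc] at h2
  linear_combination h2

/-- A `U_q²`-fixed form with the good eigensystem of a newform puts `q` in the newform's level. -/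
theorem dvd_level_of_uSqFixed {L M : ℕ} [NeZero L] [NeZero M] (hML : M ∣ L)
    {h : CuspForm (Gamma0 M) 2} (hh : h.IsNewform) {q : ℕ} (hq : q.Prime) (hqL : q ∣ L)
    (hqL2 : ¬ q ^ 2 ∣ L) {v : CuspForm (Gamma0 L) 2} (hv : v ≠ 0)
    (heig : ∀ l (hl : l.Prime), ¬ l ∣ L → Newforms.hOp L hl v = qCoeff h l • v)
    (hfix : Newforms.hOp L hq (Newforms.hOp L hq v) = v) : q ∣ M := by
  classical
  by_contra hqM
  obtain ⟨ε, hε, w, hw0, hweig, hwq⟩ : ∃ (ε : ℂ) (_ : ε = 1 ∨ ε = -1)
      (w : CuspForm (Gamma0 L) 2), w ≠ 0 ∧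
      (∀ (l : ℕ) (hl : l.Prime), ¬ l ∣ L → Newforms.hOp L hl w = qCoeff h l • w) ∧
      Newforms.hOp L hq w = ε • w := by
    by_cases h0 : v + Newforms.hOp L hq v = 0
    · refine ⟨-1, Or.inr rfl, v, hv, heig, ?_⟩
      rw [neg_one_smul]
      exact eq_neg_of_add_eq_zero_right h0
    · refine ⟨1, Or.inl rfl, _, h0, fun l hl hlL => ?_, ?_⟩
      · have hcomm := LinearMap.congr_fun (Newforms.hOp_commute (N := L) hl hq).eq v
        rw [Module.End.mul_apply, Module.End.mul_apply] at hcomm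
        rw [map_add, hcomm, heig l hl hlL, map_smul, smul_add]
      · rw [map_add, hfix, one_smul, add_comm]
  obtain ⟨g, hg, hgc⟩ := Newforms.exists_eigenform_of_eigen hw0 (fun l => ¬ l ∣ L ∨ l = q)
    (fun l => if l = q then ε else qCoeff h l) fun l hl hP => by
      rcases eq_or_ne l q with rfl | hne
      · rw [if_pos rfl]; exact hwq
      · rw [if_neg hne]; exact hweig l hl (hP.resolve_right hne)
  have hroot := qCoeff_root hML hg hh.1 hq hqL hqL2 hqM fun l hl hlL => by
    rw [hgc l hl (Or.inl hlL), if_neg fun hlq : l = q => hlL (hlq.symm ▸ hqL)]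
  rw [(hgc q hq (Or.inr rfl)).trans (if_pos rfl)] at hroot
  refine (norm_qCoeff_lt hh.1 hq hqM).ne ?_
  have ha : qCoeff h q = ε * ((q : ℂ) + 1) := by
    rcases hε with rfl | rfl
    · linear_combination -hroot
    · linear_combination hroot
  rw [ha, norm_mul, show ‖ε‖ = 1 by rcases hε with rfl | rfl <;> simp, one_mul,
    ← Nat.cast_add_one, Complex.norm_natCast, Nat.cast_add_one]

end Fermat.Agent.TwoAdic.Forms
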