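import Fermat.Agent.TwoAdic.Forms.Count
import Fermat.Agent.TwoAdic.Forms.OldRoot

/-!
# The counting lemma, unconditionally
-/

set_option autoImplicit false

namespace Fermat.Agent.TwoAdic.Forms

theorem countProperty : CountProperty :=
  countProperty_of_oldRoot fun hML _ hh _ hq hqL hqL2 _ hv heig hfix =>
    dvd_level_of_uSqFixed hML hh hq hqL hqL2 hv heig hfix

end Fermat.Agent.TwoAdic.Forms
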