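import Fermat.Agent.TwoAdic.Forms.Iface

/-!
# Forms with coefficients in an ideal of algebraic integers

The forms whose coefficients lie in `𝔪`, their behaviour under Hecke operators, and linear
independence over `ℂ` from independence of the reductions modulo `𝔪`.
-/

set_option autoImplicit false

noncomputable section

open CongruenceSubgroup ModularFormClass

namespace Fermat.Agent.TwoAdic.Forms

variable {L : ℕ}

/-- All coefficients lie in the ideal `I`. -/
def CoeffsIn (I : Ideal ZBar) (f : CuspForm (Gamma0 L) 2) : Prop :=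
  ∀ n, ∃ x ∈ I, (x : ℂ) = qCoeff f n

theorem coeffsIn_top {f : CuspForm (Gamma0 L) 2} : CoeffsIn ⊤ f ↔ IsIntegralForm f := by
  simp [CoeffsIn, IsIntegralForm]

theorem qCoeff_add_forms (f g : CuspForm (Gamma0 L) 2) (n : ℕ) :
    qCoeff ⇑(f + g) n = qCoeff f n + qCoeff g n :=
  (HeckeDuality.coeffLin (N := L) (k := 2) n).map_add f g

theorem qCoeff_smul_forms (c : ℂ) (f : CuspForm (Gamma0 L) 2) (n : ℕ) :
    qCoeff ⇑(c • f) n = c * qCoeff f n :=
  (HeckeDuality.coeffLin (N := L) (k := 2) n).map_smul c f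

theorem qCoeff_sum_smul {ι : Type*} (s : Finset ι) (c : ι → ℂ)
    (f : ι → CuspForm (Gamma0 L) 2) (n : ℕ) :
    qCoeff ⇑(∑ i ∈ s, c i • f i) n = ∑ i ∈ s, c i * qCoeff (f i) n := by
  have h := map_sum (HeckeDuality.coeffLin (N := L) (k := 2) n) (fun i => c i • f i) s
  simp only [map_smul, HeckeDuality.coeffLin_apply, smul_eq_mul] at h
  exact h

theorem CoeffsIn.add {I : Ideal ZBar} {f g : CuspForm (Gamma0 L) 2} (hf : CoeffsIn I f)
    (hg : CoeffsIn I g) : CoeffsIn I (f + g) := fun n => by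
  obtain ⟨x, hx, hx'⟩ := hf n
  obtain ⟨y, hy, hy'⟩ := hg n
  exact ⟨x + y, add_mem hx hy, by rw [qCoeff_add_forms, ← hx', ← hy']; rfl⟩

theorem CoeffsIn.smul {I : Ideal ZBar} {f : CuspForm (Gamma0 L) 2} (hf : CoeffsIn I f) (c : ZBar) :
    CoeffsIn I ((c : ℂ) • f) := fun n => by
  obtain ⟨x, hx, hx'⟩ := hf n
  exact ⟨c * x, I.mul_mem_left c hx, by rw [qCoeff_smul_forms, ← hx']; rfl⟩

theorem coeffsIn_zero (I : Ideal ZBar) : CoeffsIn I (0 : CuspForm (Gamma0 L) 2) := fun n =>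
  ⟨0, zero_mem I, by simpa using ((HeckeDuality.coeffLin (N := L) (k := 2) n).map_zero).symm⟩

theorem CoeffsIn.sum {I : Ideal ZBar} {ι : Type*} (s : Finset ι)
    {f : ι → CuspForm (Gamma0 L) 2} (hf : ∀ i ∈ s, CoeffsIn I (f i)) :
    CoeffsIn I (∑ i ∈ s, f i) :=
  Finset.sum_induction f _ (fun _ _ => CoeffsIn.add) (coeffsIn_zero I) hf

variable [NeZero L]

theorem CoeffsIn.hOp {I : Ideal ZBar} {f : CuspForm (Gamma0 L) 2} (hf : CoeffsIn I f) {ℓ : ℕ}
    (hℓ : ℓ.Prime) : CoeffsIn I (Newforms.hOp L hℓ f) := fun n => by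
  obtain ⟨x, hx, hx'⟩ := hf (n * ℓ)
  obtain ⟨y, hy, hy'⟩ := hf (n / ℓ)
  refine ⟨x + (if ℓ ∣ n then (if ℓ ∣ L then 0 else (ℓ : ZBar)) * y else 0),
    add_mem hx (by split_ifs <;> first | exact zero_mem I | exact I.mul_mem_left _ hy), ?_⟩
  rw [HeckeDuality.coeff_heckeOp, HeckeDuality.eulerWeight, ← hx', ← hy']
  split_ifs <;> simp

/-- `T_ℓ - a` preserves the forms with coefficients in `I`. -/
theorem CoeffsIn.hOp_sub {I : Ideal ZBar} {f : CuspForm (Gamma0 L) 2} (hf : CoeffsIn I f) {ℓ : ℕ}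
    (hℓ : ℓ.Prime) (a : ZBar) :
    CoeffsIn I ((Newforms.hOp L hℓ - (a : ℂ) • 1) f) := by
  have h := (hf.hOp hℓ).add (hf.smul (-a))
  simpa [sub_eq_add_neg] using h

omit [NeZero L] in
/-- Integral forms with reductions independent modulo a maximal ideal are independent over `ℂ`. -/
theorem linearIndependent_of_indep_mod {𝔪 : Ideal ZBar} (hm : 𝔪.IsMaximal) {ι : Type*} [Fintype ι]
    {f : ι → CuspForm (Gamma0 L) 2} (hint : ∀ i, IsIntegralForm (f i))
    (hind : ∀ c : ι → ZBar, CoeffsIn 𝔪 (∑ i, (c i : ℂ) • f i) → ∀ i, c i ∈ 𝔪) :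
    LinearIndependent ℂ f := by
  classical
  let _ := Ideal.Quotient.field 𝔪
  choose a ha using hint
  let col : ℕ → ι → ZBar ⧸ 𝔪 := fun n i => Ideal.Quotient.mk 𝔪 (a i n)
  have hspan : Submodule.span (ZBar ⧸ 𝔪) (Set.range col) = ⊤ := by
    by_contra h
    obtain ⟨φ, hφ0, hφ⟩ := Submodule.exists_le_ker_of_lt_top _ (lt_top_iff_ne_top.mpr h)
    refine hφ0 ((Pi.basisFun (ZBar ⧸ 𝔪) ι).ext fun i => ?_)
    choose c hc using fun j => Ideal.Quotient.mk_surjective (φ (Pi.basisFun (ZBar ⧸ 𝔪) ι j))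
    rw [LinearMap.zero_apply, ← hc i, Ideal.Quotient.eq_zero_iff_mem]
    refine hind c (fun n => ⟨∑ j, c j * a j n, Ideal.Quotient.eq_zero_iff_mem.mp ?_, ?_⟩) i
    · calc Ideal.Quotient.mk 𝔪 (∑ j, c j * a j n)
          = φ (∑ j, col n j • Pi.basisFun (ZBar ⧸ 𝔪) ι j) := by
            simp only [map_sum, map_mul, map_smul, smul_eq_mul, hc, col, mul_comm]
        _ = φ (col n) := congrArg φ ((Pi.basisFun (ZBar ⧸ 𝔪) ι).sum_repr (col n))
        _ = 0 := hφ (Submodule.subset_span ⟨n, rfl⟩)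
    · simp [qCoeff_sum_smul, ha]
  have hcomb : ∀ i, ∃ b : ℕ →₀ ZBar ⧸ 𝔪, (b.sum fun n r => r • col n) = Pi.single i 1 := fun i =>
    Finsupp.mem_span_range_iff_exists_finsupp.mp (hspan ▸ Submodule.mem_top)
  choose b hb using hcomb
  choose B hB using fun (i : ι) (n : ℕ) => Ideal.Quotient.mk_surjective (b i n)
  let A : Matrix ι ι ZBar := Matrix.of fun i j => ∑ n ∈ (b i).support, B i n * a j n
  have hA : (Ideal.Quotient.mk 𝔪).mapMatrix A = 1 := by
    ext i j
    have h : (b i).sum (fun n r => r • col n) j = ∑ n ∈ (b i).support, b i n * col n j := by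
      rw [Finsupp.sum, Finset.sum_apply]
      rfl
    rw [hb i] at h
    simp only [RingHom.mapMatrix_apply, Matrix.map_apply, A, Matrix.of_apply, map_sum, map_mul, hB]
    rw [← h, Matrix.one_apply, Pi.single_apply]
    simp [eq_comm]
  have hdet : ((algebraMap ZBar ℂ).mapMatrix A).det ≠ 0 := by
    rw [← RingHom.map_det]
    refine fun h0 => zero_ne_one (α := ZBar ⧸ 𝔪) ?_
    have hA0 : A.det = 0 := Subtype.coe_injective h0
    rw [← map_zero (Ideal.Quotient.mk 𝔪), ← hA0, RingHom.map_det, hA, Matrix.det_one]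
  refine Fintype.linearIndependent_iff.mpr fun c hc i => ?_
  have hcol : ∀ n, ∑ j, c j * (a j n : ℂ) = 0 := fun n => by
    have h := qCoeff_sum_smul Finset.univ c f n
    rw [hc] at h
    simp only [← ha] at h
    rw [← h]
    exact (HeckeDuality.coeffLin (N := L) (k := 2) n).map_zero
  have hmul : ((algebraMap ZBar ℂ).mapMatrix A).mulVec c = 0 := funext fun k => by
    simp only [Matrix.mulVec, dotProduct, RingHom.mapMatrix_apply, Matrix.map_apply, A,
      Matrix.of_apply, map_sum, map_mul, Finset.sum_mul, Pi.zero_apply]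
    rw [Finset.sum_comm]
    refine Finset.sum_eq_zero fun n _ => ?_
    have h := congrArg ((B k n : ℂ) * ·) (hcol n)
    simp only [Finset.mul_sum, mul_zero] at h
    rw [← h]
    exact Finset.sum_congr rfl fun j _ => by
      show (B k n : ℂ) * (a j n : ℂ) * c j = (B k n : ℂ) * (c j * (a j n : ℂ))
      ring
  exact congrFun (Matrix.eq_zero_of_mulVec_eq_zero hdet hmul) i

end Fermat.Agent.TwoAdic.Forms
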