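import Fermat.Agent.TwoAdic.Forms.CountReduction
import Fermat.Agent.Newforms.Semisimple
import Fermat.Agent.ConductorLevel.Eigen

/-!
# Systems of eigenvalues of the `T_ℓ`, `ℓ ∤ L`

A finite set of systems whose eigenvectors span, and the operators separating them.
-/

set_option autoImplicit false

noncomputable section

open CongruenceSubgroup ModularFormClass

namespace Fermat.Agent.TwoAdic.Forms

/-- The primes outside the level. -/
abbrev GoodPrime (L : ℕ) : Type := {ℓ : ℕ // ℓ.Prime ∧ ¬ ℓ ∣ L}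

variable {L : ℕ} [NeZero L]

/-- `w` is an eigenvector for the system `s`. -/
def HasSystem (s : GoodPrime L → ℂ) (w : CuspForm (Gamma0 L) 2) : Prop :=
  ∀ ℓ : GoodPrime L, Newforms.hOp L ℓ.2.1 w = s ℓ • w

/-- `P` commutes with the Hecke operators and multiplies eigenvectors by scalars. -/
structure IsHeckePoly (P : Module.End ℂ (CuspForm (Gamma0 L) 2)) : Prop where
  comm : ∀ (q : ℕ) (hq : q.Prime), Commute P (Newforms.hOp L hq)
  scalar : ∀ s : GoodPrime L → ℂ, ∃ c : ℂ, ∀ w, HasSystem s w → P w = c • w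

theorem isHeckePoly_one : IsHeckePoly (1 : Module.End ℂ (CuspForm (Gamma0 L) 2)) :=
  ⟨fun _ _ => Commute.one_left _, fun _ => ⟨1, fun w _ => by simp⟩⟩

theorem HasSystem.sub_apply {s : GoodPrime L → ℂ} {w : CuspForm (Gamma0 L) 2} (h : HasSystem s w)
    (ℓ : GoodPrime L) (a : ℂ) :
    (Newforms.hOp L ℓ.2.1 - a • 1) w = (s ℓ - a) • w := by
  simp [h ℓ, sub_smul]

theorem HasSystem.smul {s : GoodPrime L → ℂ} {w : CuspForm (Gamma0 L) 2} (h : HasSystem s w)
    (c : ℂ) : HasSystem s (c • w) := fun ℓ => by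
  rw [map_smul, h ℓ, smul_comm]

theorem HasSystem.sum {s : GoodPrime L → ℂ} {ι : Type*} (t : Finset ι)
    {w : ι → CuspForm (Gamma0 L) 2} (h : ∀ i ∈ t, HasSystem s (w i)) :
    HasSystem s (∑ i ∈ t, w i) := fun ℓ => by
  rw [map_sum, Finset.smul_sum]
  exact Finset.sum_congr rfl fun i hi => h i hi ℓ

theorem IsHeckePoly.smul_sub_mul {P : Module.End ℂ (CuspForm (Gamma0 L) 2)} (hP : IsHeckePoly P)
    (ℓ : GoodPrime L) (a b : ℂ) :
    IsHeckePoly ((b • (Newforms.hOp L ℓ.2.1 - a • 1)) * P) := by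
  refine ⟨fun q hq => Commute.mul_left (((Newforms.hOp_commute ℓ.2.1 hq).sub_left
    ((Commute.one_left _).smul_left a)).smul_left b) (hP.comm q hq), fun s => ?_⟩
  obtain ⟨c, hc⟩ := hP.scalar s
  refine ⟨c * (b * (s ℓ - a)), fun w hw => ?_⟩
  rw [Module.End.mul_apply, hc w hw, map_smul, LinearMap.smul_apply, hw.sub_apply, smul_smul,
    smul_smul]
  congr 1
  ring

/-- An operator fixing the system `s` and killing the systems in `S`. -/
theorem exists_separator (s : GoodPrime L → ℂ) (S : Finset (GoodPrime L → ℂ)) (hs : s ∉ S) :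
    ∃ P, IsHeckePoly P ∧ (∀ w, HasSystem s w → P w = w) ∧
      ∀ t ∈ S, ∀ w, HasSystem t w → P w = 0 := by
  classical
  induction S using Finset.induction with
  | empty => exact ⟨1, isHeckePoly_one, fun w _ => by simp, by simp⟩
  | insert t S ht ih =>
    obtain ⟨P, hP, hPs, hPS⟩ := ih fun h => hs (Finset.mem_insert_of_mem h)
    obtain ⟨ℓ, hℓ⟩ := Function.ne_iff.mp (show s ≠ t from fun h => hs (h ▸ Finset.mem_insert_self t S))
    refine ⟨_, hP.smul_sub_mul ℓ (t ℓ) (s ℓ - t ℓ)⁻¹, fun w hw => ?_, fun t' ht' w hw => ?_⟩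
    · rw [Module.End.mul_apply, hPs w hw, LinearMap.smul_apply, hw.sub_apply, smul_smul,
        inv_mul_cancel₀ (sub_ne_zero.mpr hℓ), one_smul]
    · rcases Finset.mem_insert.mp ht' with rfl | ht'
      · obtain ⟨c, hc⟩ := hP.scalar t'
        rw [Module.End.mul_apply, hc w hw, map_smul, LinearMap.smul_apply, hw.sub_apply, sub_self,
          zero_smul, smul_zero, smul_zero]
      · rw [Module.End.mul_apply, hPS t' ht' w hw, map_zero]

variable (L) in
/-- A finite set of occurring systems with every form a sum of their eigenvectors. -/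
theorem exists_systems :
    ∃ S : Finset (GoodPrime L → ℂ), (∀ s ∈ S, ∃ w, w ≠ 0 ∧ HasSystem s w) ∧
      ∀ x : CuspForm (Gamma0 L) 2, ∃ w : (GoodPrime L → ℂ) → CuspForm (Gamma0 L) 2,
        (∀ s ∈ S, HasSystem s (w s)) ∧ x = ∑ s ∈ S, w s := by
  classical
  have := IntegralStructure.finiteDimensional_cuspForm L
  obtain ⟨B, hB, hspan⟩ := (Submodule.fg_span_iff_fg_span_finset_subset (R := ℂ)
    {f : CuspForm (Gamma0 L) 2 | ∀ (ℓ : ℕ) (hℓ : ℓ.Prime), ¬ ℓ ∣ L → ∃ c : ℂ, Newforms.hOp L hℓ f = c • f}).mp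
    (IsNoetherian.noetherian _)
  rw [Newforms.span_eigenvectors_eq_top] at hspan
  have hex : ∀ b, ∃ lam : GoodPrime L → ℂ, b ∈ B → HasSystem lam b := fun b => by
    by_cases hb : b ∈ B
    · choose lam hlam using fun ℓ : GoodPrime L => hB hb ℓ.1 ℓ.2.1 ℓ.2.2
      exact ⟨lam, fun _ => hlam⟩
    · exact ⟨0, fun h => absurd h hb⟩
  choose lam hlam using hex
  refine ⟨(B.filter (· ≠ 0)).image lam, fun s hs => ?_, fun x => ?_⟩
  · obtain ⟨b, hb, rfl⟩ := Finset.mem_image.mp hs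
    exact ⟨b, (Finset.mem_filter.mp hb).2, hlam b (Finset.mem_filter.mp hb).1⟩
  · obtain ⟨c, -, hc⟩ := Submodule.mem_span_finset.mp
      (show x ∈ Submodule.span ℂ (B : Set (CuspForm (Gamma0 L) 2)) from hspan ▸ Submodule.mem_top)
    refine ⟨fun s => ∑ b ∈ (B.filter (· ≠ 0)).filter (fun b => lam b = s), c b • b,
      fun s _ => HasSystem.sum _ fun b hb => ?_, ?_⟩
    · simp only [Finset.mem_filter] at hb
      exact hb.2 ▸ (hlam b hb.1.1).smul (c b)
    · rw [Finset.sum_fiberwise_of_maps_to (fun b hb => Finset.mem_image_of_mem lam hb), ← hc]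
      exact (Finset.sum_filter_of_ne (f := fun b => c b • b) (p := (· ≠ 0))
        fun b _ hb h0 => hb (by simp [h0])).symm

/-- An occurring system has a newform of level dividing `L`, and integral values. -/
theorem exists_newform_of_system {s : GoodPrime L → ℂ} {w : CuspForm (Gamma0 L) 2} (hw : w ≠ 0)
    (hs : HasSystem s w) :
    ∃ (M : ℕ) (h : CuspForm (Gamma0 M) 2), M ∣ L ∧ h.IsNewform ∧
      ∀ ℓ : GoodPrime L, qCoeff h ℓ.1 = s ℓ ∧ ∃ a : ZBar, (a : ℂ) = s ℓ := by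
  classical
  obtain ⟨u, hu, hcoeff⟩ := Newforms.exists_eigenform_of_eigen hw (fun ℓ => ¬ ℓ ∣ L)
    (fun ℓ => if h : ℓ.Prime ∧ ¬ ℓ ∣ L then s ⟨ℓ, h⟩ else 0) (fun ℓ hℓ hℓL => by
      rw [dif_pos ⟨hℓ, hℓL⟩]
      exact hs ⟨ℓ, hℓ, hℓL⟩)
  have hu' : ∀ ℓ : GoodPrime L, qCoeff u ℓ.1 = s ℓ := fun ℓ =>
    (hcoeff ℓ.1 ℓ.2.1 ℓ.2.2).trans (dif_pos ℓ.2)
  obtain ⟨M, h, hML, hh, heq⟩ := Newforms.exists_newform hu
  refine ⟨M, h, hML, hh, fun ℓ => ⟨(heq ℓ.1 ℓ.2.1 ℓ.2.2).trans (hu' ℓ), ?_⟩⟩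
  exact ⟨⟨qCoeff u ℓ.1, ConductorLevel.isIntegral_qCoeff hu ℓ.2.1⟩, hu' ℓ⟩

end Fermat.Agent.TwoAdic.Forms
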