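import Fermat.Agent.TwoAdic.Forms.ResidualSeries

/-!
# The seed family

The forms attached to the components and to the divisors of `2 ∏ Q` have independent reductions
modulo a maximal ideal over `2`, killed by powers of `T_ℓ - abar ℓ`.
-/

set_option autoImplicit false
set_option linter.style.haveILetI false

noncomputable section

open CongruenceSubgroup ModularFormClass
open scoped NumberTheorySymbols

namespace Fermat.Agent.TwoAdic.Forms

section Lift

variable {L : ℕ} [NeZero L] {k : Type} [Field k] (red2 : ZBar →+* k)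

/-- The form has integral coefficients with the given reductions. -/
def HasReduction (f : CuspForm (Gamma0 L) 2) (r : ℕ → k) : Prop :=
  ∀ n, ∃ x : ZBar, (x : ℂ) = qCoeff f n ∧ red2 x = r n

theorem HasReduction.hOp_sub_smul {f : CuspForm (Gamma0 L) 2} {r : ℕ → k}
    (h : HasReduction red2 f r) {ℓ : ℕ} (hℓ : ℓ.Prime) (hℓL : ¬ ℓ ∣ L) (a : ℕ) :
    HasReduction red2 ((Newforms.hOp L hℓ - (a : ℂ) • 1) f)
      ((seriesT k ℓ - (a : k) • 1) r) := fun n => by
  obtain ⟨x, hx, hxr⟩ := h (n * ℓ)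
  obtain ⟨y, hy, hyr⟩ := h (n / ℓ)
  obtain ⟨z, hz, hzr⟩ := h n
  refine ⟨x + (if ℓ ∣ n then (ℓ : ZBar) * y else 0) - (a : ZBar) * z, ?_, ?_⟩
  · have hsub : ∀ g g' : CuspForm (Gamma0 L) 2,
        qCoeff ⇑(g - g') n = qCoeff g n - qCoeff g' n := fun g g' => by
      rw [eq_sub_iff_add_eq, ← Newforms.qCoeff_add, sub_add_cancel]
    rw [LinearMap.sub_apply, LinearMap.smul_apply, Module.End.one_apply, hsub,
      Newforms.qCoeff_smul]
    erw [HeckeDuality.coeff_heckeOp hℓ f n]
    rw [HeckeDuality.eulerWeight, if_neg hℓL, ← hx, ← hy, ← hz]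
    split_ifs <;> simp
  · simp only [LinearMap.sub_apply, LinearMap.smul_apply, Module.End.one_apply, Pi.sub_apply,
      Pi.smul_apply, smul_eq_mul, seriesT_apply]
    split_ifs <;> simp [hxr, hyr, hzr]

theorem HasReduction.pow {f : CuspForm (Gamma0 L) 2} {r : ℕ → k} (h : HasReduction red2 f r)
    {ℓ : ℕ} (hℓ : ℓ.Prime) (hℓL : ¬ ℓ ∣ L) (a : ℕ) (e : ℕ) :
    HasReduction red2 (((Newforms.hOp L hℓ - (a : ℂ) • 1) ^ e) f)
      (((seriesT k ℓ - (a : k) • 1) ^ e) r) := by
  induction e with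
  | zero => simpa using h
  | succ e ih =>
    rw [pow_succ', pow_succ', Module.End.mul_apply, Module.End.mul_apply]
    exact ih.hOp_sub_smul red2 hℓ hℓL a

end Lift

theorem omega_sq_add : omega ^ 2 + omega + 1 = 0 := by
  apply Subtype.ext
  have h := (Complex.isPrimitiveRoot_exp 3 three_ne_zero).geom_sum_eq_zero (by norm_num)
  simp only [Finset.sum_range_succ, Finset.sum_range_zero, pow_zero, pow_one, zero_add] at h
  show (omega : ℂ) ^ 2 + (omega : ℂ) + 1 = 0
  linear_combination (norm := (simp [omega]; ring)) h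

variable {N : ℕ} {D : IdealData N}

theorem map_wIdeal (R : ResidualData D) {k : Type} [Field k] (red2 : ZBar →+* k) (c : R.C) (n : ℕ) :
    red2 (R.wIdeal c n) = rSeries R (red2 omega) c n := by
  rw [ResidualData.wIdeal, rSeries]
  split_ifs
  · exact map_zero red2
  · rw [map_sum]
    refine Finset.sum_congr rfl fun i _ => ?_
    rw [map_mul, map_natCast, ResidualData.weight, rWeight, chiVal]
    split_ifs <;> simp

theorem seedFamily {N : ℕ} (hN : Squarefree N) (h8 : N % 8 = 3) {D : IdealData N}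
    (R : ResidualData D) (h : SeedCoeff R) : SeedFamily R := by
  intro Q hQ _ 𝔪 hm h2
  haveI := hm
  letI : Field (ZBar ⧸ 𝔪) := Ideal.Quotient.field 𝔪
  let red2 : ZBar →+* ZBar ⧸ 𝔪 := Ideal.Quotient.mk 𝔪
  have hk : (2 : ZBar ⧸ 𝔪) = 0 := by
    rw [← map_ofNat red2 2]
    exact Ideal.Quotient.eq_zero_iff_mem.mpr h2
  have hw2 : red2 omega ^ 2 + red2 omega + 1 = 0 := by
    have := congrArg red2 omega_sq_add
    simpa using this
  have hw : red2 omega ^ 3 = 1 := by linear_combination (red2 omega - 1) * hw2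
  have h2Q : 2 ∉ Q := fun h => (hQ 2 h).2.1 rfl
  set Q' := insert 2 Q with hQ'
  have hinert : ∀ q ∈ Q', IsInertPrime N q := by
    intro q hq
    rcases Finset.mem_insert.mp hq with rfl | hq
    exacts [⟨Nat.prime_two, Or.inl rfl⟩, (hQ q hq).1]
  have hdvd : ∀ A : Q'.powerset, ∏ q ∈ A.1, q ∣ 2 * ∏ q ∈ Q, q := fun A => by
    rw [← Finset.prod_insert (f := fun q => q) h2Q]
    exact Finset.prod_dvd_prod_of_subset _ _ _ (Finset.mem_powerset.mp A.2)
  choose f hfix hco using fun i : R.C × Q'.powerset => h Q hQ i.1 _ (hdvd i.2)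
  have hred : ∀ i, HasReduction red2 (f i) (rFamily R (red2 omega) i.1 i.2.1) := by
    intro i n
    obtain ⟨x, y, hx, hxy⟩ := hco i n
    refine ⟨x, hx, ?_⟩
    rw [hxy, map_add, map_mul, map_ofNat, hk, zero_mul, add_zero, rFamily, dil, dil]
    split_ifs
    · exact map_wIdeal R red2 _ _
    · exact map_zero red2
  refine ⟨R.C × Q'.powerset, inferInstance, f, ?_, ⟨fun i n => ?_, hfix, ?_, ?_⟩⟩
  · rw [Fintype.card_prod, Fintype.card_coe, Finset.card_powerset, hQ',
      Finset.card_insert_of_notMem h2Q]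
  · obtain ⟨x, hx, -⟩ := hred i n
    exact ⟨x, hx⟩
  · intro c hc i
    refine Ideal.Quotient.eq_zero_iff_mem.mp
      (rFamily_independent R (red2 omega) hk hw2 hw hinert (fun i => red2 (c i)) (fun n => ?_) i)
    choose x hx hxr using fun i => hred i n
    obtain ⟨z, hz, hzc⟩ := hc n
    have hzeq : z = ∑ i, c i * x i := by
      refine Subtype.ext ?_
      rw [hzc]
      push_cast
      simp only [hx]
    simp only [← hxr, ← map_mul, ← map_sum, ← hzeq]
    exact Ideal.Quotient.eq_zero_iff_mem.mpr hz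
  · intro ℓ hℓ hℓL
    have hℓN : ¬ ℓ ∣ N := fun h => hℓL (h.trans (dvd_mul_right _ _))
    obtain ⟨e, he⟩ := exists_pow_seriesT_eq_zero R (red2 omega) hk hw2 hw hinert hℓ hℓN fun h => by
      rcases Finset.mem_insert.mp h with rfl | h
      · rfl
      · exact absurd ((Finset.dvd_prod_of_mem (fun q => q) h).trans (dvd_mul_left _ _)) hℓL
    refine ⟨e, fun i n => ?_⟩
    obtain ⟨x, hx, hxr⟩ := (hred i).pow red2 hℓ hℓL (R.abar ℓ).val e n
    refine ⟨x, Ideal.Quotient.eq_zero_iff_mem.mp ?_, hx⟩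
    show red2 x = 0
    rw [hxr, he i.1 i.2]
    rfl

end Fermat.Agent.TwoAdic.Forms
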