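import Fermat.Agent.TwoAdic.Forms.Iface
import Fermat.Agent.Theta.Scaled
import Fermat.Agent.Newforms.Eigen

/-!
`SeedCoeff`: the cusp forms `½ ∑ w(i) θ(Q_i)(z) θ(Q₁)(m z)` of level `N m` and their translates by
the operators `U_q`, `q ∣ m`, and `T₂` reduce modulo two to the dilations of the weight one
coefficients.
-/

set_option autoImplicit false

noncomputable section

open CongruenceSubgroup ModularFormClass
open scoped Real NumberTheorySymbols

namespace Fermat.Agent.TwoAdic.Forms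

namespace Seed

open Finset.HasAntidiagonal (antidiagonal mem_antidiagonal)

section algebra

variable {A : Type*} [CommRing A]

/-- The coefficient sequence of a product. -/
def conv (f g : ℕ → A) (n : ℕ) : A := ∑ p ∈ antidiagonal n, f p.1 * g p.2

theorem conv_comm (f g : ℕ → A) (n : ℕ) : conv f g n = conv g f n := by
  refine Finset.sum_nbij' Prod.swap Prod.swap ?_ ?_ (fun _ _ => rfl) (fun _ _ => rfl)
    fun p _ => mul_comm _ _
  all_goals exact fun p hp => by simpa [add_comm] using hp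

/-- The rule `f (n q) = f (n / q)` satisfied at an inert prime. -/
def IsInertSeq (q : ℕ) (f : ℕ → A) : Prop :=
  ∀ n, f (n * q) = if q ∣ n then f (n / q) else 0

theorem dil_inert {q d : ℕ} (hq : q.Prime) (hqd : ¬ q ∣ d) {f : ℕ → A} (hf : IsInertSeq q f)
    (i : ℕ) : dil d f (i * q) = dil (d * q) f i := by
  have hcop : Nat.Coprime d q := (hq.coprime_iff_not_dvd.2 hqd).symm
  have hd0 : 0 < d := Nat.pos_of_ne_zero fun h => hqd (h ▸ dvd_zero q)
  by_cases hdi : d ∣ i
  · obtain ⟨j, rfl⟩ := hdi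
    simp only [dil, if_pos (dvd_mul_of_dvd_left (dvd_mul_right d j) q)]
    rw [mul_assoc, Nat.mul_div_cancel_left _ hd0, hf j]
    simp only [Nat.mul_dvd_mul_iff_left hd0, Nat.mul_div_mul_left _ _ hd0]
  · simp only [dil, if_neg (fun h => hdi (hcop.dvd_of_dvd_mul_right h)),
      if_neg (fun h => hdi ((dvd_mul_right d q).trans h))]

theorem dil_mul_right {q : ℕ} (hq : 0 < q) (e : ℕ) (h : ℕ → A) (i : ℕ) :
    dil (e * q) h (i * q) = dil e h i := by
  simp only [dil, Nat.mul_dvd_mul_iff_right hq, Nat.mul_div_mul_right _ _ hq]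

theorem dil_eq_zero {q e j : ℕ} (h : ℕ → A) (hj : ¬ q ∣ j) : dil (e * q) h j = 0 :=
  if_neg fun hh => hj ((dvd_mul_left q e).trans hh)

/-- `U_q` moves the dilation by `q` from the second factor to the first. -/
theorem conv_mul_inert {q d e : ℕ} (hq : q.Prime) (hqd : ¬ q ∣ d) {f : ℕ → A}
    (hf : IsInertSeq q f) (h : ℕ → A) (n : ℕ) :
    conv (dil d f) (dil (e * q) h) (n * q) = conv (dil (d * q) f) (dil e h) n := by
  let emb : ℕ × ℕ ↪ ℕ × ℕ := ⟨fun p => (p.1 * q, p.2 * q), fun p r hpr => by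
    simp only [Prod.mk.injEq] at hpr
    exact Prod.ext (Nat.eq_of_mul_eq_mul_right hq.pos hpr.1)
      (Nat.eq_of_mul_eq_mul_right hq.pos hpr.2)⟩
  have hsub : (antidiagonal n).map emb ⊆ antidiagonal (n * q) := by
    intro p hp
    obtain ⟨r, hr, rfl⟩ := Finset.mem_map.mp hp
    rw [mem_antidiagonal] at hr ⊢
    show r.1 * q + r.2 * q = n * q
    rw [← add_mul, hr]
  unfold conv
  rw [← Finset.sum_subset hsub fun p hp hpn => ?_, Finset.sum_map]
  · refine Finset.sum_congr rfl fun p _ => ?_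
    show dil d f (p.1 * q) * dil (e * q) h (p.2 * q) = _
    rw [dil_inert hq hqd hf, dil_mul_right hq.pos]
  · by_cases hj : q ∣ p.2
    · obtain ⟨j, hj⟩ := hj
      have hsum := mem_antidiagonal.mp hp
      obtain ⟨i, hi⟩ : q ∣ p.1 :=
        (Nat.dvd_add_left ⟨j, hj⟩).mp (hsum ▸ dvd_mul_left q n)
      refine absurd (Finset.mem_map.mpr ⟨(i, j), ?_, ?_⟩) hpn
      · rw [mem_antidiagonal]
        refine Nat.eq_of_mul_eq_mul_left hq.pos ?_
        rw [mul_add, ← hi, ← hj, hsum, mul_comm]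
      · exact Prod.ext (show i * q = p.1 by rw [hi, mul_comm])
          (show j * q = p.2 by rw [hj, mul_comm])
    · rw [dil_eq_zero h hj, mul_zero]

theorem conv_mul_inert' {q d e : ℕ} (hq : q.Prime) (hqe : ¬ q ∣ e) {h : ℕ → A}
    (hh : IsInertSeq q h) (f : ℕ → A) (n : ℕ) :
    conv (dil (d * q) f) (dil e h) (n * q) = conv (dil d f) (dil (e * q) h) n := by
  rw [conv_comm, conv_mul_inert hq hqe hh, conv_comm]

/-- If `h ≡ δ₀ (mod 2)` then the convolution with a dilation of `h` is the identity mod two. -/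
theorem conv_eq_add_two_mul (f : ℕ → A) {h h' : ℕ → A} {e : ℕ} (he : 0 < e) (h0 : h 0 = 1)
    (hh : ∀ n, 0 < n → h n = 2 * h' n) (n : ℕ) :
    ∃ y, conv f (dil e h) n = f n + 2 * y := by
  refine ⟨∑ p ∈ antidiagonal n, f p.1 * (if p.2 = 0 then 0 else dil e h' p.2), ?_⟩
  have hterm : ∀ p : ℕ × ℕ, f p.1 * dil e h p.2 =
      (if p.2 = 0 then f p.1 else 0) + 2 * (f p.1 * (if p.2 = 0 then 0 else dil e h' p.2)) := by
    intro p
    rcases eq_or_ne p.2 0 with hp | hp
    · simp [hp, dil, h0]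
    · simp only [if_neg hp, zero_add, dil]
      by_cases hd : e ∣ p.2
      · rw [if_pos hd, if_pos hd,
          hh _ (Nat.div_pos (Nat.le_of_dvd (Nat.pos_of_ne_zero hp) hd) he)]
        ring
      · rw [if_neg hd, if_neg hd]
        ring
  unfold conv
  rw [Finset.sum_congr rfl fun p _ => hterm p, Finset.sum_add_distrib, ← Finset.mul_sum,
    Finset.sum_eq_single (n, 0)]
  · simp
  · intro p hp hpn
    have := mem_antidiagonal.mp hp
    rw [if_neg]
    intro h2
    exact hpn (Prod.ext (by simpa [h2] using this) h2)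
  · intro h; exact absurd (mem_antidiagonal.mpr (add_zero n)) h

end algebra

variable {N : ℕ} {D : IdealData N}

/-- The representation numbers of the principal form as algebraic integers. -/
def R0 (D : IdealData N) (n : ℕ) : ZBar := ((D.form 1).count n : ZBar)

theorem eval_eq_zero_iff {f : Theta.BinForm} (hf : f.IsPos) (v : ℤ × ℤ) :
    f.eval v = 0 ↔ v = 0 := by
  refine ⟨fun h => ?_, fun h => by simp [h, Theta.BinForm.eval]⟩
  by_contra hv
  have hv' : (v.1 : ℝ) ≠ 0 ∨ (v.2 : ℝ) ≠ 0 := by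
    by_contra h'
    simp only [not_or, not_not, Int.cast_eq_zero] at h'
    exact hv (Prod.ext h'.1 h'.2)
  have := Theta.BinForm.eval_pos hf hv'
  have e : f.eval ((v.1 : ℝ), (v.2 : ℝ)) = ((f.eval v : ℤ) : ℝ) := by simp [Theta.BinForm.eval]
  rw [e, h] at this
  simp at this

theorem count_zero {f : Theta.BinForm} (hf : f.IsPos) : f.count 0 = 1 := by
  rw [Theta.BinForm.count, Nat.card_eq_one_iff_unique]
  exact ⟨⟨fun a b => Subtype.ext (by
    rw [(eval_eq_zero_iff hf a.1).mp (by simpa using a.2),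
      (eval_eq_zero_iff hf b.1).mp (by simpa using b.2)])⟩,
    ⟨⟨0, by simp [Theta.BinForm.eval]⟩⟩⟩

theorem count_scale {f : Theta.BinForm} {e : ℕ} (he : 0 < e) (n : ℕ) :
    (f.scale (e : ℤ)).count n = dil e f.count n := by
  have he' : (e : ℤ) ≠ 0 := by exact_mod_cast he.ne'
  simp only [dil]
  by_cases hd : e ∣ n
  · obtain ⟨j, rfl⟩ := hd
    rw [if_pos (dvd_mul_right e j), Nat.mul_div_cancel_left _ he]
    refine Nat.card_congr (Equiv.subtypeEquivRight fun v => ?_)
    rw [Theta.BinForm.eval_scale, Int.cast_id]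
    push_cast
    exact ⟨mul_left_cancel₀ he', fun h => by rw [h]⟩
  · rw [if_neg hd]
    refine Nat.card_eq_zero.mpr (Or.inl ⟨fun v => hd ?_⟩)
    have h := v.2
    rw [Theta.BinForm.eval_scale, Int.cast_id] at h
    exact Int.natCast_dvd_natCast.mp ⟨_, h.symm⟩

theorem R0_zero : R0 D 0 = 1 := by simp [R0, count_zero (D.form_pos 1)]

theorem R0_pos (n : ℕ) (hn : 0 < n) : R0 D n = 2 * (D.idealCount 1 n : ZBar) := by
  simp [R0, D.count_form 1 n hn]

theorem isInertSeq_of_pos {A : Type*} [CommRing A] {q : ℕ} {f : ℕ → A}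
    (h : ∀ n, 0 < n → f (n * q) = if q ∣ n then f (n / q) else 0) : IsInertSeq q f := by
  intro n
  rcases Nat.eq_zero_or_pos n with rfl | hn
  · simp
  · exact h n hn

theorem isInertSeq_R0 {q : ℕ} (hq : IsInertPrime N q) : IsInertSeq q (R0 D) := by
  refine isInertSeq_of_pos fun n hn => ?_
  rw [R0_pos _ (Nat.mul_pos hn hq.1.pos), D.recursion_inert q hq 1 n hn]
  by_cases h : q ∣ n
  · rw [if_pos h, if_pos h, R0_pos _ (Nat.div_pos (Nat.le_of_dvd hn h) hq.1.pos)]
  · simp [h]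

theorem isInertSeq_wIdeal (R : ResidualData D) (c : R.C) {q : ℕ} (hq : IsInertPrime N q) :
    IsInertSeq q (R.wIdeal c) := by
  refine isInertSeq_of_pos fun n hn => ?_
  simp only [ResidualData.wIdeal, if_neg (Nat.mul_pos hn hq.1.pos).ne',
    D.recursion_inert q hq _ n hn]
  by_cases h : q ∣ n
  · simp only [if_pos h, if_neg (Nat.div_pos (Nat.le_of_dvd hn h) hq.1.pos).ne']
  · simp [h]

/-- A square class `t` killed by `art` on which `psi` is not one. -/
theorem exists_twist (R : ResidualData D) :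
    ∃ s : D.G, R.art (s ^ 2) = 1 ∧ R.psi (s ^ 2) ≠ 1 := by
  obtain ⟨k, hk⟩ := R.card_two_pow
  obtain ⟨ℓ, -, -, -, -, p, -, -, hp⟩ := R.prime_surj 1 (Multiplicative.ofAdd (1 : ZMod 3)) ∅
  refine ⟨p ^ (2 ^ k), ?_, ?_⟩
  · rw [map_pow, map_pow, ← hk, pow_card_eq_one, one_pow]
  · rw [← pow_mul, map_pow, hp, Ne, ← ofAdd_nsmul, ← ofAdd_zero, Multiplicative.ofAdd.apply_eq_iff_eq,
      nsmul_eq_mul, mul_one, ← pow_succ, ZMod.natCast_eq_zero_iff]
    intro h
    have := Nat.Prime.dvd_of_dvd_pow Nat.prime_three h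
    omega

theorem omega_pow_three : omega ^ 3 = 1 :=
  Subtype.ext (by simpa [omega] using (Complex.isPrimitiveRoot_exp 3 three_ne_zero).pow_eq_one)

theorem omega_val_add (x y : ZMod 3) :
    (omega : ZBar) ^ (x + y).val = omega ^ x.val * omega ^ y.val := by
  rw [ZMod.val_add, ← pow_add]
  exact (pow_eq_pow_mod _ omega_pow_three).symm

/-- Sums of the weights against functions invariant under squares vanish. -/
theorem sum_weight_mul (R : ResidualData D) (c : R.C) (f : D.G → ℂ)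
    (hf : ∀ i t, f (i * t ^ 2) = f i) : ∑ i, (R.weight c i : ℂ) * f i = 0 := by
  obtain ⟨s, hs1, hs2⟩ := exists_twist R
  set z : ZBar := omega ^ (Multiplicative.toAdd (R.psi (s ^ 2))).val with hzdef
  have hz : (z : ℂ) ≠ 1 := by
    have hne : (Multiplicative.toAdd (R.psi (s ^ 2))).val ≠ 0 := by
      rw [Ne, ZMod.val_eq_zero]
      exact fun h => hs2 (Multiplicative.toAdd.injective h)
    simp only [hzdef, omega, SubmonoidClass.coe_pow]
    exact (Complex.isPrimitiveRoot_exp 3 three_ne_zero).pow_ne_one_of_pos_of_lt hne (ZMod.val_lt _)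
  have hw : ∀ i, R.weight c (i * s ^ 2) = z * R.weight c i := by
    intro i
    simp only [ResidualData.weight, map_mul, hs1, mul_one, toAdd_mul, omega_val_add, hzdef]
    split <;> ring
  have h : ∑ i, (R.weight c i : ℂ) * f i = (z : ℂ) * ∑ i, (R.weight c i : ℂ) * f i := by
    rw [Finset.mul_sum]
    refine (Fintype.sum_equiv (Equiv.mulRight (s ^ 2))
      (fun i => (R.weight c (i * s ^ 2) : ℂ) * f (i * s ^ 2)) _ fun i => rfl).symm.trans ?_
    refine Finset.sum_congr rfl fun i _ => ?_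
    simp only [hw, hf]
    push_cast
    ring
  have h' : ((z : ℂ) - 1) * ∑ i, (R.weight c i : ℂ) * f i = 0 := by linear_combination -1 * h
  exact (mul_eq_zero.mp h').resolve_left (sub_ne_zero.mpr hz)

/-- The starting form. -/
theorem exists_start (R : ResidualData D) (c : R.C) (m : ℕ) [NeZero (N * m)] :
    ∃ f : CuspForm (Gamma0 (N * m)) 2, ∀ n,
      qCoeff f n = ((conv (dil 1 (R.wIdeal c)) (dil m (R0 D)) n : ZBar) : ℂ) := by
  have hm : 0 < m := Nat.pos_of_ne_zero (right_ne_zero_of_mul (NeZero.ne (N * m)))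
  have hd : ∀ i, (D.form i).negDisc ∣ (N : ℤ) := fun i => by rw [D.negDisc_form]
  have hsq : ∀ i, IsSquare ((D.form i).negDisc * (D.form 1).negDisc) := fun i => by
    rw [D.negDisc_form, D.negDisc_form]; exact ⟨N, rfl⟩
  have hA := fun i => Theta.isLattice_pairMatrix_scale hm (D.form_pos i) (D.form_pos 1) (hd i)
    (hd 1) (hsq i)
  have hsum := sum_weight_mul R c (fun _ => 1) fun _ _ => rfl
  simp only [mul_one] at hsum
  let F := Theta.thetaCuspForm hA (fun i => (R.weight c i : ℂ)) hsum (fun k _ a hak => by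
    refine (Finset.sum_congr rfl fun i _ => ?_).trans (sum_weight_mul R c (fun i =>
      ((Real.sqrt (((N : ℤ) * ((D.form 1).scale (m : ℤ)).negDisc : ℤ) : ℝ) : ℝ) : ℂ)⁻¹ *
      ((D.form i).gaussSum₂ k a * ((D.form 1).scale (m : ℤ)).gaussSum₂ k a))
      fun i t => by simp only [D.gauss_mul_sq k a hak i t])
    rw [Theta.gauss_pairMatrix,
      show (Theta.realMat (Theta.pairMatrix (D.form i) ((D.form 1).scale (m : ℤ)))).det =
        (((Theta.pairMatrix (D.form i) ((D.form 1).scale (m : ℤ))).det : ℤ) : ℝ) from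
          ((Int.castRingHom ℝ).map_det _).symm, Theta.det_pairMatrix, D.negDisc_form]
    ring)
  refine ⟨(2 : ℂ)⁻¹ • F, fun n => ?_⟩
  rw [Newforms.qCoeff_smul, Theta.qCoeff_thetaCuspForm]
  simp only [Theta.repCount_pairMatrix (hA _) (D.form_pos _)
    (Theta.BinForm.isPos_scale hm (D.form_pos 1))]
  have hsplit : ∀ j : ℕ, (∑ i, (R.weight c i : ℂ) * (D.form i).count j) =
      2 * ((R.wIdeal c j : ZBar) : ℂ) := by
    intro j
    rcases Nat.eq_zero_or_pos j with rfl | hj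
    · simp [count_zero (D.form_pos _), ResidualData.wIdeal, hsum]
    · simp only [D.count_form _ j hj, ResidualData.wIdeal, if_neg hj.ne']
      push_cast
      rw [Finset.mul_sum]
      exact Finset.sum_congr rfl fun i _ => by ring
  have hscale : ∀ j, (((D.form 1).scale (m : ℤ)).count j : ℂ) = ((dil m (R0 D) j : ZBar) : ℂ) := by
    intro j
    rw [count_scale hm]
    by_cases h : m ∣ j <;> simp [dil, h, R0]
  have hone : dil 1 (R.wIdeal c) = R.wIdeal c := funext fun j => by simp [dil]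
  rw [hone, conv]
  push_cast
  simp only [Finset.mul_sum]
  rw [Finset.sum_comm]
  refine Finset.sum_congr rfl fun p _ => ?_
  rw [← hscale]
  calc _ = (2 : ℂ)⁻¹ * (∑ i, (R.weight c i : ℂ) * (D.form i).count p.1) *
        ((D.form 1).scale (m : ℤ)).count p.2 := by
        rw [Finset.mul_sum, Finset.sum_mul]
        exact Finset.sum_congr rfl fun i _ => by ring
    _ = _ := by rw [hsplit]; ring

variable {Q : Finset ℕ}

theorem not_dvd_prod (hQ : IsAuxSet N Q) {S : Finset ℕ} (hS : S ⊆ Q) {q : ℕ} (hq : q.Prime)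
    (hqS : q ∉ S) : ¬ q ∣ ∏ r ∈ S, r := by
  intro h
  obtain ⟨r, hr, hqr⟩ := (hq.prime.dvd_finsetProd_iff _).mp h
  exact hqS ((Nat.prime_dvd_prime_iff_eq hq (hQ r (hS hr)).1.1).mp hqr ▸ hr)

/-- The coefficients attached to a subset of `Q`. -/
def coeffs (R : ResidualData D) (c : R.C) (Q S : Finset ℕ) (n : ℕ) : ZBar :=
  conv (dil (∏ r ∈ S, r) (R.wIdeal c)) (dil (∏ r ∈ Q \ S, r) (R0 D)) n

theorem hOp_coeff {L : ℕ} [NeZero L] {q : ℕ} (hq : q.Prime) (hqL : q ∣ L)
    (f : CuspForm (Gamma0 L) 2) (n : ℕ) :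
    qCoeff ⇑(Newforms.hOp L hq f) n = qCoeff f (n * q) := by
  rw [HeckeDuality.coeff_heckeOp hq f n, HeckeDuality.eulerWeight, if_pos hqL]
  simp

theorem coeffs_up (R : ResidualData D) (c : R.C) (hQ : IsAuxSet N Q) {S : Finset ℕ} (hS : S ⊆ Q)
    {q : ℕ} (hqQ : q ∈ Q) (hqS : q ∉ S) (n : ℕ) :
    coeffs R c Q S (n * q) = coeffs R c Q (insert q S) n ∧
      coeffs R c Q (insert q S) (n * q) = coeffs R c Q S n := by
  have hq := (hQ q hqQ).1
  have h1 : ∏ r ∈ insert q S, r = (∏ r ∈ S, r) * q := by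
    rw [Finset.prod_insert hqS, mul_comm]
  have hsd : Q \ S = insert q (Q \ insert q S) := by
    ext x
    simp only [Finset.mem_sdiff, Finset.mem_insert]
    by_cases hx : x = q <;> simp [hx, hqQ, hqS]
  have h2 : ∏ r ∈ Q \ S, r = (∏ r ∈ Q \ insert q S, r) * q := by
    rw [hsd, Finset.prod_insert (by simp), mul_comm]
  have hnot := not_dvd_prod hQ hS hq.1 hqS
  have hnot' : ¬ q ∣ ∏ r ∈ Q \ insert q S, r :=
    not_dvd_prod hQ Finset.sdiff_subset hq.1 (by simp)
  simp only [coeffs, h1, h2]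
  exact ⟨conv_mul_inert hq.1 hnot (isInertSeq_wIdeal R c hq) _ n,
    conv_mul_inert' hq.1 hnot' (isInertSeq_R0 hq) _ n⟩

/-- The translate attached to a subset of `Q`. -/
theorem exists_translate (hQ : IsAuxSet N Q) [NeZero (N * ∏ q ∈ Q, q)]
    (R : ResidualData D) (c : R.C) (S : Finset ℕ) (hS : S ⊆ Q) :
    ∃ f : CuspForm (Gamma0 (N * ∏ q ∈ Q, q)) 2, IsUSqFixed Q f ∧
      ∀ n, qCoeff f n = (coeffs R c Q S n : ℂ) := by
  have hL : ∀ q ∈ Q, q ∣ N * ∏ r ∈ Q, r := fun q hq =>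
    dvd_mul_of_dvd_right (Finset.dvd_prod_of_mem (fun r => r) hq) _
  have hex : ∀ S, S ⊆ Q → ∃ f : CuspForm (Gamma0 (N * ∏ q ∈ Q, q)) 2,
      ∀ n, qCoeff f n = (coeffs R c Q S n : ℂ) := by
    intro S
    induction S using Finset.induction_on with
    | empty =>
      intro _
      obtain ⟨f, hf⟩ := exists_start R c (∏ q ∈ Q, q)
      exact ⟨f, fun n => by simpa [coeffs] using hf n⟩
    | insert q S hqS IH =>
      intro hS
      obtain ⟨hqQ, hSQ⟩ := Finset.insert_subset_iff.mp hS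
      obtain ⟨f, hf⟩ := IH hSQ
      refine ⟨Newforms.hOp _ (hQ q hqQ).1.1 f, fun n => ?_⟩
      rw [hOp_coeff _ (hL q hqQ), hf, (coeffs_up R c hQ hSQ hqQ hqS n).1]
  obtain ⟨f, hf⟩ := hex S hS
  refine ⟨f, fun r hr hrQ => Newforms.eq_of_forall_qCoeff fun n => ?_, hf⟩
  rw [hOp_coeff hr (hL r hrQ), hOp_coeff hr (hL r hrQ), hf, hf]
  by_cases hrS : r ∈ S
  · have hS' : S.erase r ⊆ Q := (Finset.erase_subset r S).trans hS
    have h1 := (coeffs_up R c hQ hS' hrQ (Finset.notMem_erase r S) (n * r)).2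
    have h2 := (coeffs_up R c hQ hS' hrQ (Finset.notMem_erase r S) n).1
    rw [Finset.insert_erase hrS] at h1 h2
    rw [h1, h2]
  · rw [(coeffs_up R c hQ hS hrQ hrS (n * r)).1, (coeffs_up R c hQ hS hrQ hrS n).2]

theorem exists_subset (hQ : IsAuxSet N Q) {d : ℕ} (hd : d ∣ ∏ q ∈ Q, q) :
    ∃ S, S ⊆ Q ∧ d = ∏ r ∈ S, r := by
  have hpf : (∏ q ∈ Q, q).primeFactors = Q := Nat.primeFactors_prod fun q hq => (hQ q hq).1.1
  have hm : Squarefree (∏ q ∈ Q, q) := by
    refine Finset.squarefree_prod_of_pairwise_isCoprime (fun a ha b hb hab => ?_)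
      fun a ha => (hQ a ha).1.1.squarefree
    exact Nat.coprime_iff_isRelPrime.mp ((Nat.coprime_primes (hQ a ha).1.1 (hQ b hb).1.1).mpr hab)
  have h0 : ∏ q ∈ Q, q ≠ 0 := hm.ne_zero
  refine ⟨d.primeFactors, ?_, (Nat.prod_primeFactors_of_squarefree (hm.squarefree_of_dvd hd)).symm⟩
  exact (Nat.primeFactors_mono hd h0).trans hpf.le

theorem coeffs_mod_two (hQ : IsAuxSet N Q) (R : ResidualData D) (c : R.C) (S : Finset ℕ) (n : ℕ) :
    ∃ y, coeffs R c Q S n = dil (∏ r ∈ S, r) (R.wIdeal c) n + 2 * y :=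
  conv_eq_add_two_mul _ (Finset.prod_pos fun r hr => (hQ r (Finset.sdiff_subset hr)).1.1.pos)
    R0_zero (fun n hn => R0_pos n hn) n

end Seed

open Seed in
/-- The seed forms exist. -/
theorem seedCoeff {N : ℕ} (h8 : N % 8 = 3) {D : IdealData N} (R : ResidualData D) :
    SeedCoeff R := by
  intro Q hQ _ c d hd
  have htwo : IsInertPrime N 2 := ⟨Nat.prime_two, Or.inl rfl⟩
  have h2Q : ¬ 2 ∣ ∏ q ∈ Q, q := by
    intro h
    obtain ⟨r, hr, h2r⟩ := (Nat.prime_two.prime.dvd_finsetProd_iff _).mp h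
    exact (hQ r hr).2.1 ((Nat.prime_dvd_prime_iff_eq Nat.prime_two (hQ r hr).1.1).mp h2r).symm
  have h2L : ¬ 2 ∣ N * ∏ q ∈ Q, q := by
    rw [Nat.prime_two.dvd_mul]
    exact not_or.mpr ⟨by omega, h2Q⟩
  by_cases h2d : 2 ∣ d
  · obtain ⟨d', rfl⟩ := h2d
    obtain ⟨S, hS, rfl⟩ := exists_subset hQ (Nat.dvd_of_mul_dvd_mul_left two_pos hd)
    obtain ⟨f, hfix, hf⟩ := exists_translate hQ R c S hS
    refine ⟨Newforms.hOp _ Nat.prime_two f, fun q hq hqQ => ?_, fun n => ?_⟩
    · have hc := Newforms.hOp_commute (N := N * ∏ q ∈ Q, q) hq Nat.prime_two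
      have h1 := LinearMap.congr_fun hc.eq f
      simp only [Module.End.mul_apply] at h1
      rw [h1, ← Module.End.mul_apply, hc.eq, Module.End.mul_apply, hfix q hq hqQ]
    · have hS2 : ¬ 2 ∣ ∏ r ∈ S, r := fun h => h2Q (h.trans (Finset.prod_dvd_prod_of_subset S Q _ hS))
      obtain ⟨y, hy⟩ := coeffs_mod_two hQ R c S (n * 2)
      refine ⟨coeffs R c Q S (n * 2) + (if 2 ∣ n then 2 * coeffs R c Q S (n / 2) else 0),
        y + (if 2 ∣ n then coeffs R c Q S (n / 2) else 0), ?_, ?_⟩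
      · rw [HeckeDuality.coeff_heckeOp Nat.prime_two f n, HeckeDuality.eulerWeight, if_neg h2L]
        split
        · simp [hf]
          exact Or.inl rfl
        · simp [hf]
      · rw [hy, dil_inert Nat.prime_two hS2 (isInertSeq_wIdeal R c htwo), mul_comm 2 (∏ r ∈ S, r)]
        split <;> ring
  · have hd' : d ∣ ∏ q ∈ Q, q :=
      ((Nat.prime_two.coprime_iff_not_dvd.2 h2d).symm).dvd_of_dvd_mul_left hd
    obtain ⟨S, hS, rfl⟩ := exists_subset hQ hd'
    obtain ⟨f, hfix, hf⟩ := exists_translate hQ R c S hS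
    refine ⟨f, hfix, fun n => ?_⟩
    obtain ⟨y, hy⟩ := coeffs_mod_two hQ R c S n
    exact ⟨_, y, (hf n).symm, hy⟩

end Fermat.Agent.TwoAdic.Forms
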