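import Fermat.Agent.TwoAdic.Forms.CountProof
import Fermat.Agent.TwoAdic.Forms.Family
import Fermat.Agent.TwoAdic.Forms.Seed

/-!
# The form side: many congruent newforms, unconditionally
-/

set_option autoImplicit false

namespace Fermat.Agent.TwoAdic.Forms

/-- For squarefree `N ≡ 3 (mod 8)` every residual system has `#C * 2 ^ (#Q + 1)` congruent newforms
at the levels `N ∏ Q`. -/
theorem manyCongruentNewforms_of_squarefree {N : ℕ} (hN : Squarefree N) (h8 : N % 8 = 3)
    {D : IdealData N} (R : ResidualData D) : ManyCongruentNewforms R :=
  manyCongruentNewforms hN (seedFamily hN h8 R (seedCoeff h8 R)) countProperty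

end Fermat.Agent.TwoAdic.Forms
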