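import Fermat.Agent.TwoAdic.Forms.Iface
import Mathlib.Algebra.CharP.Lemmas
import Mathlib.Algebra.CharP.Algebra
import Mathlib.Algebra.MonoidAlgebra.Basic

/-!
# The weight one series modulo a prime over `2`

Recursions of the residual series of the components, their independence after dilations, and the
nilpotence of `T_ℓ - abar ℓ` on them.
-/

set_option autoImplicit false

noncomputable section

open scoped NumberTheorySymbols

namespace Fermat.Agent.TwoAdic.Forms

variable {k : Type*} [Field k]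

/-- The Hecke operator of weight two on series, for a prime not dividing the level. -/
def seriesT (k : Type*) [Field k] (ℓ : ℕ) : Module.End k (ℕ → k) where
  toFun r n := r (n * ℓ) + if ℓ ∣ n then (ℓ : k) * r (n / ℓ) else 0
  map_add' r s := by
    funext n
    show (r + s) (n * ℓ) + _ = (r (n * ℓ) + _) + (s (n * ℓ) + _)
    split_ifs with h <;> simp only [Pi.add_apply] <;> ring
  map_smul' a r := by
    funext n
    show (a • r) (n * ℓ) + _ = a * (r (n * ℓ) + _)
    split_ifs with h <;> simp only [Pi.smul_apply, smul_eq_mul] <;> ring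

theorem seriesT_apply (ℓ : ℕ) (r : ℕ → k) (n : ℕ) :
    seriesT k ℓ r n = r (n * ℓ) + if ℓ ∣ n then (ℓ : k) * r (n / ℓ) else 0 := rfl

theorem seriesT_two (hk : (2 : k) = 0) (r : ℕ → k) (n : ℕ) : seriesT k 2 r n = r (n * 2) := by
  rw [seriesT_apply]
  simp [hk]

theorem dil_one {A : Type*} [Zero A] (r : ℕ → A) : dil 1 r = r := funext fun n => by simp [dil]

theorem dil_mul {A : Type*} [Zero A] {d e : ℕ} (hd : 0 < d) (r : ℕ → A) :
    dil (d * e) r = dil d (dil e r) := funext fun n => by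
  simp only [dil]
  by_cases h : d ∣ n
  · obtain ⟨m, rfl⟩ := h
    simp [Nat.mul_dvd_mul_iff_left hd, Nat.mul_div_mul_left, hd]
  · rw [if_neg h, if_neg fun h' => h ((dvd_mul_right d e).trans h')]

theorem seriesT_dil {ℓ d : ℕ} (hd : 0 < d) (hℓ : 0 < ℓ) (hcop : Nat.Coprime d ℓ) (r : ℕ → k) :
    seriesT k ℓ (dil d r) = dil d (seriesT k ℓ r) := funext fun n => by
  simp only [seriesT_apply, dil]
  by_cases h : d ∣ n
  · obtain ⟨m, rfl⟩ := h
    rw [if_pos (dvd_mul_right d m), mul_assoc, if_pos (dvd_mul_right d (m * ℓ)),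
      Nat.mul_div_cancel_left _ hd, Nat.mul_div_cancel_left _ hd]
    congr 1
    by_cases hm : ℓ ∣ m
    · obtain ⟨t, rfl⟩ := hm
      rw [if_pos (dvd_mul_right ℓ t), if_pos (Dvd.dvd.mul_left (dvd_mul_right ℓ t) d),
        show d * (ℓ * t) = ℓ * (d * t) by ring, Nat.mul_div_cancel_left _ hℓ,
        Nat.mul_div_cancel_left _ hℓ, if_pos (dvd_mul_right d t), Nat.mul_div_cancel_left _ hd]
    · rw [if_neg hm, if_neg fun h' => hm (hcop.symm.dvd_of_dvd_mul_left h')]
  · rw [if_neg h, if_neg fun h' => h (hcop.dvd_of_dvd_mul_right h'), zero_add]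
    split_ifs with h1 h2
    · exact absurd (h2.trans (Nat.div_dvd_of_dvd h1)) h
    · rw [mul_zero]
    · rfl

variable {N : ℕ} {D : IdealData N} (R : ResidualData D) (w : k)

/-- The value of the character on a class, for a cube root of unity `w`. -/
def chiVal (x : Multiplicative (ZMod 3)) : k := w ^ (Multiplicative.toAdd x).val

theorem chiVal_mul (hw : w ^ 3 = 1) (x y : Multiplicative (ZMod 3)) :
    chiVal w (x * y) = chiVal w x * chiVal w y := by
  rw [chiVal, chiVal, chiVal, ← pow_add, toAdd_mul, ZMod.val_add, ← pow_eq_pow_mod _ hw]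

/-- The weight of a class in a component. -/
def rWeight (c : R.C) (i : D.G) : k := if R.art i = c then chiVal w (R.psi i) else 0

/-- The series of a component. -/
def rSeries (c : R.C) (n : ℕ) : k :=
  if n = 0 then 0 else ∑ i : D.G, rWeight R w c i * (D.idealCount i n : k)

theorem rSeries_zero (c : R.C) : rSeries R w c 0 = 0 := if_pos rfl

theorem rSeries_of_pos (c : R.C) {n : ℕ} (hn : 0 < n) :
    rSeries R w c n = ∑ i : D.G, rWeight R w c i * (D.idealCount i n : k) := if_neg hn.ne'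

theorem rSeries_inert {ℓ : ℕ} (hℓ : IsInertPrime N ℓ) (c : R.C) (n : ℕ) :
    rSeries R w c (n * ℓ) = if ℓ ∣ n then rSeries R w c (n / ℓ) else 0 := by
  have hℓ0 := hℓ.1.pos
  rcases Nat.eq_zero_or_pos n with rfl | hn
  · simp [rSeries_zero]
  rw [rSeries_of_pos R w c (Nat.mul_pos hn hℓ0)]
  by_cases h : ℓ ∣ n
  · rw [if_pos h, rSeries_of_pos R w c (Nat.div_pos (Nat.le_of_dvd hn h) hℓ0)]
    exact Finset.sum_congr rfl fun i _ => by rw [D.recursion_inert ℓ hℓ i n hn, if_pos h]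
  · rw [if_neg h]
    exact Finset.sum_eq_zero fun i _ => by
      rw [D.recursion_inert ℓ hℓ i n hn, if_neg h, Nat.cast_zero, mul_zero]

theorem seriesT_rSeries_inert (hk : (2 : k) = 0) {ℓ : ℕ} (hℓ : IsInertPrime N ℓ) (hℓ2 : ℓ ≠ 2)
    (c : R.C) : seriesT k ℓ (rSeries R w c) = 0 := funext fun n => by
  obtain ⟨m, rfl⟩ : Odd ℓ := hℓ.1.odd_of_ne_two hℓ2
  rw [seriesT_apply, rSeries_inert R w hℓ, Pi.zero_apply]
  split_ifs with h
  · push_cast
    rw [hk]
    linear_combination rSeries R w c (n / (2 * m + 1)) * hk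
  · rw [zero_add]

theorem seriesT_two_sq_rSeries (hk : (2 : k) = 0) (c : R.C) :
    seriesT k 2 (seriesT k 2 (rSeries R w c)) = rSeries R w c := funext fun n => by
  rw [seriesT_two hk, seriesT_two hk, rSeries_inert R w ⟨Nat.prime_two, Or.inl rfl⟩,
    if_pos (dvd_mul_left 2 n), Nat.mul_div_cancel _ two_pos]

theorem seriesT_two_rSeries (hk : (2 : k) = 0) (c : R.C) :
    seriesT k 2 (rSeries R w c) = dil 2 (rSeries R w c) := funext fun n => by
  rw [seriesT_two hk, rSeries_inert R w ⟨Nat.prime_two, Or.inl rfl⟩]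
  rfl

theorem sum_rWeight_shift (hw : w ^ 3 = 1) (c : R.C) (p : D.G) (n : ℕ) (hn : 0 < n) :
    ∑ i : D.G, rWeight R w c i * (D.idealCount (i * p⁻¹) n : k) =
      chiVal w (R.psi p) * rSeries R w (c * (R.art p)⁻¹) n := by
  rw [rSeries_of_pos R w _ hn, Finset.mul_sum, ← Equiv.sum_comp (Equiv.mulRight p)]
  refine Finset.sum_congr rfl fun j _ => ?_
  simp only [Equiv.coe_mulRight, mul_inv_cancel_right, rWeight, map_mul, ← mul_assoc,
    eq_mul_inv_iff_mul_eq, chiVal_mul w hw]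
  split_ifs with h <;> ring

theorem seriesT_rSeries_split (hk : (2 : k) = 0) (hw : w ^ 3 = 1) {ℓ : ℕ} (hℓ : ℓ.Prime)
    (hℓ2 : ℓ ≠ 2) {p : D.G} (hp : D.IsPrimeClass ℓ p) (c : R.C) :
    seriesT k ℓ (rSeries R w c) =
      chiVal w (R.psi p) • rSeries R w (c * (R.art p)⁻¹) +
        chiVal w (R.psi p⁻¹) • rSeries R w (c * R.art p) := funext fun n => by
  rcases Nat.eq_zero_or_pos n with rfl | hn
  · simp [seriesT_apply, rSeries_zero]
  have hone : (ℓ : k) = 1 := by
    obtain ⟨m, hm⟩ := hℓ.odd_of_ne_two hℓ2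
    rw [hm]
    push_cast
    rw [hk, zero_mul, zero_add]
  have h1 := sum_rWeight_shift R w hw c p n hn
  have h2 := sum_rWeight_shift R w hw c p⁻¹ n hn
  rw [inv_inv, map_inv R.art, inv_inv] at h2
  simp only [Pi.add_apply, Pi.smul_apply, smul_eq_mul]
  rw [← h1, ← h2, ← Finset.sum_add_distrib, seriesT_apply,
    rSeries_of_pos R w c (Nat.mul_pos hn hℓ.pos)]
  split_ifs with h
  · rw [hone, one_mul, rSeries_of_pos R w c (Nat.div_pos (Nat.le_of_dvd hn h) hℓ.pos),
      ← Finset.sum_add_distrib]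
    refine Finset.sum_congr rfl fun i _ => ?_
    rw [← mul_add, ← mul_add, ← Nat.cast_add, ← Nat.cast_add, ← hp i n hn, if_pos h]
  · rw [add_zero]
    refine Finset.sum_congr rfl fun i _ => ?_
    rw [← mul_add, ← Nat.cast_add, ← hp i n hn, if_neg h, add_zero]

theorem rSeries_prime {ℓ : ℕ} (hℓ : ℓ.Prime) {p : D.G}
    (hp : D.IsPrimeClass ℓ p) (c : R.C) :
    rSeries R w c ℓ = (if R.art p = c then chiVal w (R.psi p) else 0) +
      (if (R.art p)⁻¹ = c then chiVal w (R.psi p⁻¹) else 0) := by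
  rw [rSeries_of_pos R w c hℓ.pos]
  have hi : ∀ i, D.idealCount i ℓ = D.idealCount (i * p⁻¹) 1 + D.idealCount (i * p) 1 := by
    intro i
    have h := hp i 1 one_pos
    rwa [one_mul, if_neg (fun h => hℓ.ne_one (Nat.dvd_one.mp h)), add_zero] at h
  simp only [hi, Nat.cast_add, mul_add, Finset.sum_add_distrib]
  have key : ∀ q : D.G, ∑ i : D.G, rWeight R w c i * (D.idealCount (i * q⁻¹) 1 : k) =
      rWeight R w c q := fun q => by
    rw [Finset.sum_eq_single q]
    · rw [mul_inv_cancel, D.idealCount_one_one, Nat.cast_one, mul_one]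
    · intro i _ hi
      rw [D.idealCount_one_of_ne _ (fun h => hi (mul_inv_eq_one.mp h)), Nat.cast_zero, mul_zero]
    · simp
  have h2 := key p⁻¹
  rw [inv_inv] at h2
  rw [key p, h2, rWeight, rWeight, map_inv R.art]

/-- The members of the family. -/
def rFamily (c : R.C) (A : Finset ℕ) : ℕ → k := dil (∏ q ∈ A, q) (rSeries R w c)

theorem prod_pos_of_inert {A : Finset ℕ} (hA : ∀ q ∈ A, IsInertPrime N q) : 0 < ∏ q ∈ A, q :=
  Finset.prod_pos fun q hq => (hA q hq).1.pos

theorem not_dvd_prod_of_not_mem {A : Finset ℕ} (hA : ∀ q ∈ A, IsInertPrime N q) {ℓ : ℕ}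
    (hℓ : ℓ.Prime) (h : ℓ ∉ A) : ¬ ℓ ∣ ∏ q ∈ A, q := by
  rw [hℓ.prime.dvd_finsetProd_iff]
  rintro ⟨q, hq, hdvd⟩
  exact h ((Nat.prime_dvd_prime_iff_eq hℓ (hA q hq).1).mp hdvd ▸ hq)

theorem rFamily_eval {A A₀ : Finset ℕ} (hA : ∀ q ∈ A, IsInertPrime N q)
    (hA₀ : ∀ q ∈ A₀, IsInertPrime N q) {ℓ : ℕ} (hℓ : ℓ.Prime) (hℓA : ℓ ∉ A) (hℓA₀ : ℓ ∉ A₀)
    (c : R.C) :
    rFamily R w c A ((∏ q ∈ A₀, q) * ℓ) = if A = A₀ then rSeries R w c ℓ else 0 := by
  rw [rFamily]
  by_cases hsub : A ⊆ A₀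
  · rw [dil, if_pos ((Finset.prod_dvd_prod_of_subset _ _ _ hsub).trans (dvd_mul_right _ _)),
      ← Finset.prod_sdiff hsub, mul_comm _ (∏ q ∈ A, q), mul_assoc,
      Nat.mul_div_cancel_left _ (prod_pos_of_inert hA)]
    rcases (A₀ \ A).eq_empty_or_nonempty with h | ⟨q, hq⟩
    · rw [h, Finset.prod_empty, one_mul,
        if_pos (Finset.Subset.antisymm hsub (Finset.sdiff_eq_empty_iff_subset.mp h))]
    · have hq' := hA₀ q (Finset.mem_sdiff.mp hq).1
      have hne : A ≠ A₀ := fun h => (Finset.mem_sdiff.mp hq).2 (h ▸ (Finset.mem_sdiff.mp hq).1)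
      rw [if_neg hne, ← Finset.mul_prod_erase _ _ hq, mul_assoc, mul_comm, rSeries_inert R w hq',
        if_neg]
      intro h
      rcases hq'.1.dvd_mul.mp h with h | h
      · exact not_dvd_prod_of_not_mem
          (fun x hx => hA₀ x (Finset.mem_sdiff.mp (Finset.mem_of_mem_erase hx)).1) hq'.1
          (Finset.notMem_erase q _) h
      · exact hℓA₀ ((Nat.prime_dvd_prime_iff_eq hq'.1 hℓ).mp h ▸ (Finset.mem_sdiff.mp hq).1)
  · obtain ⟨q, hq, hq₀⟩ := Finset.not_subset.mp hsub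
    rw [dil, if_neg, if_neg fun (h : A = A₀) => hq₀ (h ▸ hq)]
    intro h
    rcases (hA q hq).1.dvd_mul.mp ((Finset.dvd_prod_of_mem (fun x => x) hq).trans h) with h | h
    · exact not_dvd_prod_of_not_mem hA₀ (hA q hq).1 hq₀ h
    · exact hℓA ((Nat.prime_dvd_prime_iff_eq (hA q hq).1 hℓ).mp h ▸ hq)

theorem rFamily_independent (hk : (2 : k) = 0) (hw2 : w ^ 2 + w + 1 = 0) (hw : w ^ 3 = 1)
    {Q : Finset ℕ} (hQ : ∀ q ∈ Q, IsInertPrime N q) (x : R.C × Q.powerset → k)
    (hx : ∀ n, ∑ i, x i * rFamily R w i.1 i.2.1 n = 0) : ∀ i, x i = 0 := by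
  have hsub : ∀ A : Q.powerset, ∀ q ∈ A.1, IsInertPrime N q := fun A q hq =>
    hQ q (Finset.mem_powerset.mp A.2 hq)
  have key : ∀ (a : R.C) (e : Multiplicative (ZMod 3)) (A : Q.powerset),
      x (a, A) * chiVal w e + x (a⁻¹, A) * chiVal w e⁻¹ = 0 := by
    intro a e A
    obtain ⟨ℓ, hℓ, hℓQ, -, -, p, hp, rfl, rfl⟩ := R.prime_surj a e Q
    have hni : ∀ B : Q.powerset, ℓ ∉ B.1 := fun B h => hℓQ (Finset.mem_powerset.mp B.2 h)
    have h := hx ((∏ q ∈ A.1, q) * ℓ)
    rw [Fintype.sum_prod_type, Finset.sum_comm, Finset.sum_eq_single A] at h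
    · simp only [rFamily_eval R w (hsub A) (hsub A) hℓ (hni A) (hni A), if_pos trivial,
        rSeries_prime R w hℓ hp, mul_add, Finset.sum_add_distrib] at h
      simpa [map_inv] using h
    · intro B _ hB
      refine Finset.sum_eq_zero fun c _ => ?_
      rw [rFamily_eval R w (hsub B) (hsub A) hℓ (hni B) (hni A),
        if_neg fun h => hB (Subtype.ext h), mul_zero]
    · simp
  rintro ⟨a, A⟩
  have h0 := key a 1 A
  have h1 := key a (Multiplicative.ofAdd 1) A
  have e0 : chiVal w (1 : Multiplicative (ZMod 3)) = 1 := pow_zero w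
  have e1 : chiVal w (Multiplicative.ofAdd (1 : ZMod 3)) = w := pow_one w
  have e2 : chiVal w (Multiplicative.ofAdd (1 : ZMod 3))⁻¹ = w ^ 2 := rfl
  rw [inv_one, e0] at h0
  rw [e1, e2] at h1
  have h2 : (w - w ^ 2) * x (a, A) = 0 := by linear_combination h1 - w ^ 2 * h0
  refine (mul_eq_zero.mp h2).resolve_left fun h => ?_
  rcases mul_eq_zero.mp (show w * (1 - w) = 0 by linear_combination h) with h' | h'
  · simp [h'] at hw
  · have h1' : w = 1 := by linear_combination -h'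
    rw [h1'] at hw2
    exact one_ne_zero (show (1 : k) = 0 by linear_combination hw2 - hk)

/-- `T_ℓ - abar ℓ` is nilpotent on the family, with a uniform exponent. -/
theorem exists_pow_seriesT_eq_zero (hk : (2 : k) = 0) (hw2 : w ^ 2 + w + 1 = 0)
    (hw : w ^ 3 = 1) {Q : Finset ℕ} (hQ : ∀ q ∈ Q, IsInertPrime N q) {ℓ : ℕ} (hℓ : ℓ.Prime)
    (hℓN : ¬ ℓ ∣ N) (hℓQ : ℓ ∈ Q → ℓ = 2) :
    ∃ e : ℕ, ∀ (c : R.C) (A : Q.powerset),
      ((seriesT k ℓ - ((R.abar ℓ).val : k) • 1) ^ e) (rFamily R w c A.1) = 0 := by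
  by_cases hℓ2 : ℓ = 2
  · subst hℓ2
    refine ⟨2, fun c A => ?_⟩
    have hA : ∀ q ∈ A.1, IsInertPrime N q := fun q hq => hQ q (Finset.mem_powerset.mp A.2 hq)
    obtain ⟨d, r, hd, hd2, hr, hfam⟩ : ∃ (d : ℕ) (r : ℕ → k), 0 < d ∧ Nat.Coprime d 2 ∧
        seriesT k 2 (seriesT k 2 r) = r ∧ rFamily R w c A.1 = dil d r := by
      have hcop : ∀ B : Finset ℕ, (∀ q ∈ B, IsInertPrime N q) → 2 ∉ B →
          Nat.Coprime (∏ q ∈ B, q) 2 := fun B hB h2 =>
        (Nat.prime_two.coprime_iff_not_dvd.mpr (not_dvd_prod_of_not_mem hB Nat.prime_two h2)).symm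
      by_cases h2 : 2 ∈ A.1
      · have hA' : ∀ q ∈ A.1.erase 2, IsInertPrime N q := fun q hq =>
          hA q (Finset.mem_of_mem_erase hq)
        refine ⟨∏ q ∈ A.1.erase 2, q, seriesT k 2 (rSeries R w c), prod_pos_of_inert hA',
          hcop _ hA' (Finset.notMem_erase _ _), by rw [seriesT_two_sq_rSeries R w hk], ?_⟩
        rw [seriesT_two_rSeries R w hk, ← dil_mul (prod_pos_of_inert hA'),
          Finset.prod_erase_mul _ _ h2, rFamily]
      · exact ⟨_, _, prod_pos_of_inert hA, hcop _ hA h2, seriesT_two_sq_rSeries R w hk c, rfl⟩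
    rw [hfam, R.abar_two, pow_two]
    simp only [ZMod.val_one, Nat.cast_one, one_smul, Module.End.mul_apply, LinearMap.sub_apply,
      Module.End.one_apply, map_sub, seriesT_dil hd two_pos hd2, hr]
    funext n
    simp only [Pi.sub_apply, Pi.zero_apply]
    linear_combination (dil d r n - dil d (seriesT k 2 r) n) * hk
  have hcop : ∀ A : Q.powerset, Nat.Coprime (∏ q ∈ A.1, q) ℓ := fun A =>
    (hℓ.coprime_iff_not_dvd.mpr (not_dvd_prod_of_not_mem
      (fun q hq => hQ q (Finset.mem_powerset.mp A.2 hq)) hℓ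
      fun h => hℓ2 (hℓQ (Finset.mem_powerset.mp A.2 h)))).symm
  have hpos : ∀ A : Q.powerset, 0 < ∏ q ∈ A.1, q := fun A =>
    prod_pos_of_inert fun q hq => hQ q (Finset.mem_powerset.mp A.2 hq)
  by_cases hin : IsInertPrime N ℓ
  · refine ⟨1, fun c A => ?_⟩
    rw [R.abar_inert ℓ hin hℓ2]
    simp only [ZMod.val_zero, Nat.cast_zero, zero_smul, sub_zero, pow_one, rFamily]
    rw [seriesT_dil (hpos A) hℓ.pos (hcop A), seriesT_rSeries_inert R w hk hin hℓ2]
    funext n
    simp [dil]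
  have hJ : J(-(N : ℤ) | ℓ) = 1 := by
    rcases jacobiSym.trichotomy (-(N : ℤ)) ℓ with h | h | h
    · have h' := jacobiSym.eq_zero_iff.mp h
      refine absurd ?_ h'.2
      rw [Int.neg_gcd, Int.gcd_natCast_natCast]
      exact (hℓ.coprime_iff_not_dvd.mpr hℓN).symm
    · exact h
    · exact absurd ⟨hℓ, Or.inr h⟩ hin
  obtain ⟨p, hp⟩ := D.recursion_split ℓ hℓ hℓ2 hJ
  obtain ⟨m, hm⟩ := R.card_two_pow
  refine ⟨2 ^ m, fun c A => ?_⟩
  have hab : ((R.abar ℓ).val : k) = chiVal w (R.psi p) + chiVal w (R.psi p⁻¹) := by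
    rw [R.abar_split ℓ hℓ hℓ2 hJ p hp, map_inv R.psi]
    generalize R.psi p = e
    have h2 : ∀ y : ZMod 3, y = 0 ∨ y = 1 ∨ y = 2 := by decide
    obtain ⟨y, rfl⟩ := Multiplicative.ofAdd.surjective e
    rcases h2 y with rfl | rfl | rfl
    · show ((ZMod.val (if Multiplicative.ofAdd (0 : ZMod 3) = 1 then (0 : ZMod 2) else 1) : ℕ) : k)
        = w ^ 0 + w ^ 0
      rw [if_pos ofAdd_zero, ZMod.val_zero, Nat.cast_zero]
      linear_combination -hk
    · show ((ZMod.val (if Multiplicative.ofAdd (1 : ZMod 3) = 1 then (0 : ZMod 2) else 1) : ℕ) : k)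
        = w ^ 1 + w ^ 2
      rw [if_neg (by decide), ZMod.val_one, Nat.cast_one]
      linear_combination hk - hw2
    · show ((ZMod.val (if Multiplicative.ofAdd (2 : ZMod 3) = 1 then (0 : ZMod 2) else 1) : ℕ) : k)
        = w ^ 2 + w ^ 1
      rw [if_neg (by decide), ZMod.val_one, Nat.cast_one]
      linear_combination hk - hw2
  set a := R.art p
  set u := chiVal w (R.psi p)
  set v := chiVal w (R.psi p⁻¹)
  let F : R.C → (ℕ → k) := fun c => dil (∏ q ∈ A.1, q) (rSeries R w c)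
  let E : MonoidAlgebra k R.C ≃ₗ[k] (R.C →₀ k) := MonoidAlgebra.coeffLinearEquiv k
  let Φ : MonoidAlgebra k R.C →ₗ[k] (ℕ → k) := (Finsupp.linearCombination k F).comp E.toLinearMap
  let y : MonoidAlgebra k R.C := MonoidAlgebra.single a⁻¹ u - MonoidAlgebra.single 1 u +
    (MonoidAlgebra.single a v - MonoidAlgebra.single 1 v)
  set X := seriesT k ℓ - ((R.abar ℓ).val : k) • (1 : Module.End k (ℕ → k)) with hX
  have hΦs : ∀ (g : R.C) (r : k), Φ (MonoidAlgebra.single g r) = r • F g := fun g r =>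
    Finsupp.linearCombination_single k r g
  have hXΦ : ∀ z, X (Φ z) = Φ (y * z) := by
    suffices h : X ∘ₗ Φ ∘ₗ E.symm.toLinearMap =
        Φ ∘ₗ LinearMap.mulLeft k y ∘ₗ E.symm.toLinearMap by
      intro z
      have h' := LinearMap.congr_fun h (E z)
      simpa using h'
    refine Finsupp.lhom_ext fun g r => ?_
    have hs : E.symm (Finsupp.single g r) = MonoidAlgebra.single g r :=
      E.injective (by rw [E.apply_symm_apply]; rfl)
    show X (Φ (E.symm (Finsupp.single g r))) = Φ (y * E.symm (Finsupp.single g r))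
    rw [hs]
    simp only [y, add_mul, sub_mul, MonoidAlgebra.single_mul_single, one_mul, map_add, map_sub,
      hΦs, map_smul]
    have hF : X (F g) = u • F (g * a⁻¹) - u • F g + (v • F (g * a) - v • F g) := by
      have hlin : seriesT k ℓ (F g) = u • F (g * a⁻¹) + v • F (g * a) := by
        show seriesT k ℓ (dil _ _) = _
        rw [seriesT_dil (hpos A) hℓ.pos (hcop A), seriesT_rSeries_split R w hk hw hℓ hℓ2 hp]
        funext n
        show dil _ _ n = u * dil _ _ n + v * dil _ _ n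
        simp only [dil]
        split_ifs <;> simp [u, v, a]
      rw [hX, LinearMap.sub_apply, hlin, LinearMap.smul_apply, Module.End.one_apply, hab,
        add_smul]
      abel
    rw [hF, mul_comm a⁻¹, mul_comm a]
    simp only [smul_add, smul_sub, smul_smul, mul_comm r]
  have hpow : ∀ (j : ℕ) (z : MonoidAlgebra k R.C), (X ^ j) (Φ z) = Φ (y ^ j * z) := by
    intro j
    induction j with
    | zero => intro z; simp
    | succ j ih =>
      intro z
      rw [pow_succ, Module.End.mul_apply,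
        hXΦ, ih, pow_succ, mul_assoc]
  have : CharP k 2 := CharTwo.of_one_ne_zero_of_two_eq_zero one_ne_zero hk
  have : CharP (MonoidAlgebra k R.C) 2 :=
    charP_of_injective_algebraMap (algebraMap k (MonoidAlgebra k R.C)).injective 2
  have hy : y ^ 2 ^ m = 0 := by
    have hone : ∀ g : R.C, g ^ 2 ^ m = 1 := fun g => by rw [← hm]; exact pow_card_eq_one
    simp only [y, add_pow_char_pow, sub_pow_char_pow, MonoidAlgebra.single_pow, hone, sub_self,
      add_zero]
  have hfam : rFamily R w c A.1 = Φ (MonoidAlgebra.single c 1) := by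
    rw [hΦs, one_smul]
    rfl
  rw [hfam, hpow, hy, zero_mul, map_zero]

end Fermat.Agent.TwoAdic.Forms
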